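import Fermat.Agent.CocompactDegree.Degree
import Fermat.Agent.CocompactForms.Poincare

/-!
# Consequences of the degree formula

The area is a positive rational multiple of `π`, the dimension of the forms of weight `k` is at
most `⌊k A / (4 π)⌋ + 1`, and every fibre of a quotient of two forms has the same weighted count.
-/

set_option autoImplicit false
set_option linter.unusedSectionVars false
set_option linter.style.haveILetI false

noncomputable section

open MeasureTheory Set Filter Topology Complex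
open UpperHalfPlane hiding I
open FA.CocompactForms
open scoped MatrixGroups Manifold Real

namespace FA.CocompactDegree

variable {Γ : Subgroup SL(2, ℝ)} [DiscreteTopology Γ] [CompactSpace (SL(2, ℝ) ⧸ Γ)]

theorem exists_notMem_fixSet (Γ : Subgroup SL(2, ℝ)) [DiscreteTopology Γ]
    [CompactSpace (SL(2, ℝ) ⧸ Γ)] : ∃ t, t ∉ fixSet Γ := by
  by_contra h
  push Not at h
  obtain ⟨D, hD⟩ := exists_fundSet Γ
  have h0 : volume D = 0 := measure_mono_null (fun z _ => h z) (volume_fixSet Γ)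
  rw [volume_eq_area Γ hD, ENNReal.ofReal_eq_zero] at h0
  linarith [area_pos Γ]

variable {k : ℤ} {f g : ℍ → ℂ}

theorem le_weightedDegree (hf : IsForm Γ k f) (h0 : f ≠ 0) (t : ℍ) :
    (ordAt f t : ℝ) / ramIndex Γ (Quotient.mk'' t : Orb Γ).out ≤ weightedDegree Γ f := by
  have hfin := (degree_formula hf h0).1
  have hsupp : (Function.support fun x : Orb Γ =>
      (ordAt f x.out : ℝ) / ramIndex Γ x.out).Finite :=
    hfin.subset fun x hx => by_contra fun hne => hx (by
      simp [(ordAt_eq_zero_iff hf.1 h0 _).2 hne])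
  refine le_trans (le_of_eq ?_) (single_le_finsum (Quotient.mk'' t : Orb Γ) hsupp
    fun x => by positivity)
  obtain ⟨γ, hγ⟩ := Quotient.mk_out (s := MulAction.orbitRel Γ ℍ) t
  rw [show (Quotient.mk'' t : Orb Γ).out = γ • t from hγ.symm, ordAt_smul hf γ t]

omit [CompactSpace (SL(2, ℝ) ⧸ Γ)] in
theorem ramIndex_smul (γ : Γ) (z : ℍ) : ramIndex Γ (γ • z) = ramIndex Γ z := by
  simp only [ramIndex, MulAction.stabilizer_smul_eq_stabilizer_map_conj,
    Nat.card_congr (Subgroup.equivMapOfInjective (MulAction.stabilizer Γ z)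
      (MulAut.conj γ).toMonoidHom (MulAut.conj γ).injective).toEquiv]

/-- **The degree formula in a transversal.** -/
theorem degree_formula_fundSet (hf : IsForm Γ k f) (h0 : f ≠ 0) {D : Set ℍ}
    (hD : IsFundSet Γ D) :
    {z ∈ D | f z = 0}.Finite ∧
      ∑ᶠ z ∈ D, (ordAt f z : ℝ) / ramIndex Γ z = k * area Γ / (4 * π) := by
  obtain ⟨hfin, hdeg⟩ := degree_formula hf h0
  set π' : ℍ → Orb Γ := Quotient.mk''
  have hinj : InjOn π' D := fun z hz w hw h =>
    (hD.2 z).unique ⟨hz, MulAction.mem_orbit_self z⟩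
      ⟨hw, MulAction.mem_orbit_symm.1 (Quotient.eq''.1 h)⟩
  have hinv : ∀ z : ℍ, ∃ γ : Γ, (π' z).out = γ • z := fun z => by
    obtain ⟨γ, hγ⟩ := Quotient.mk_out (s := MulAction.orbitRel Γ ℍ) z
    exact ⟨γ, hγ.symm⟩
  refine ⟨Set.Finite.of_finite_image (hfin.subset ?_) (hinj.mono fun z hz => hz.1), ?_⟩
  · rintro _ ⟨z, hz, rfl⟩
    obtain ⟨γ, hγ⟩ := hinv z
    show f (π' z).out = 0
    rw [hγ, Subgroup.smul_def, hf.2 _ γ.2 z, hz.2, mul_zero]
  · have hbij : Function.Bijective fun z : D => π' z :=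
      ⟨fun a b h => Subtype.ext (hinj a.2 b.2 h), fun x => by
        obtain ⟨w, ⟨hw, hwo⟩, -⟩ := hD.2 x.out
        exact ⟨⟨w, hw⟩, (Quotient.sound' hwo).trans x.out_eq'⟩⟩
    rw [← hdeg, weightedDegree, ← finsum_set_coe_eq_finsum_mem]
    refine finsum_eq_of_bijective _ hbij fun z => ?_
    obtain ⟨γ, hγ⟩ := hinv z
    rw [hγ, ordAt_smul hf γ, ramIndex_smul γ]

/-- **The dimension bound.** -/
theorem finrank_forms_le (Γ : Subgroup SL(2, ℝ)) [DiscreteTopology Γ]
    [CompactSpace (SL(2, ℝ) ⧸ Γ)] (k : ℤ) :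
    FiniteDimensional ℂ (forms Γ k) ∧
      Module.finrank ℂ (forms Γ k) ≤ ⌊(k : ℝ) * area Γ / (4 * π)⌋₊ + 1 := by
  obtain ⟨C, hC⟩ := exists_finrank_le Γ
  haveI := (hC k).1
  refine ⟨inferInstance, ?_⟩
  set n := ⌊(k : ℝ) * area Γ / (4 * π)⌋₊ + 1 with hn
  obtain ⟨t, ht⟩ := exists_notMem_fixSet Γ
  let L : forms Γ k →ₗ[ℂ] (Fin n → ℂ) :=
    { toFun := fun f i => iteratedDeriv i (f.1 ∘ ofComplex) (t : ℂ)
      map_add' := fun f g => funext fun i => by
        show iteratedDeriv _ ((f.1 ∘ ofComplex) + (g.1 ∘ ofComplex)) _ = _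
        rw [iteratedDeriv_add (analyticAt_ext f.2.1 t).contDiffAt
          (analyticAt_ext g.2.1 t).contDiffAt]
        rfl
      map_smul' := fun c f => funext fun i => by
        show iteratedDeriv _ (fun w => c * (f.1 ∘ ofComplex) w) _ = _
        rw [iteratedDeriv_const_mul_field]
        rfl }
  have hinj : Function.Injective L := (injective_iff_map_eq_zero L).2 fun f hf => by
    by_contra hne
    have h0 : f.1 ≠ 0 := fun h => hne (Subtype.ext h)
    have hord : (n : ℕ∞) ≤ analyticOrderAt (f.1 ∘ ofComplex) (t : ℂ) :=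
      (natCast_le_analyticOrderAt_iff_iteratedDeriv_eq_zero (analyticAt_ext f.2.1 t)).2
        fun i hi => congrFun hf ⟨i, hi⟩
    rw [← ENat.natCast_toNat (order_ne_top f.2.1 h0 t), Nat.cast_le] at hord
    have hle := le_weightedDegree f.2 h0 t
    rw [(degree_formula f.2 h0).2, ramIndex_eq_one Γ, Nat.cast_one, div_one] at hle
    · have h1 : (n : ℝ) ≤ (k : ℝ) * area Γ / (4 * π) :=
        le_trans (Nat.cast_le.2 hord) hle
      have h2 := Nat.lt_floor_add_one ((k : ℝ) * area Γ / (4 * π))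
      rw [hn, Nat.cast_add, Nat.cast_one] at h1
      linarith
    · obtain ⟨γ, hγ⟩ := Quotient.mk_out (s := MulAction.orbitRel Γ ℍ) t
      intro h
      refine ht ?_
      have h' := smul_mem_fixSet Γ h γ⁻¹
      rwa [show (Quotient.mk'' t : Orb Γ).out = γ • t from hγ.symm, inv_smul_smul] at h'
  exact (LinearMap.finrank_le_finrank_of_injective hinj).trans_eq (Module.finrank_fin_fun ℂ)

/-- **The area is a positive rational multiple of `π`.** -/
theorem area_rational (Γ : Subgroup SL(2, ℝ)) [DiscreteTopology Γ]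
    [CompactSpace (SL(2, ℝ) ⧸ Γ)] : ∃ q : ℚ, 0 < q ∧ area Γ = q * π := by
  classical
  obtain ⟨k, hk, f, hf, h0⟩ := exists_form_ne_zero Γ 1
  obtain ⟨hfin, hdeg⟩ := degree_formula hf h0
  set q₀ : ℚ := ∑ x ∈ hfin.toFinset, (ordAt f x.out : ℚ) / ramIndex Γ x.out
  have hq : weightedDegree Γ f = (q₀ : ℝ) := by
    rw [weightedDegree, finsum_eq_sum_of_support_subset (s := hfin.toFinset)]
    · simp [q₀]
    · exact fun x hx => hfin.mem_toFinset.2 (by_contra fun hne => hx (by
        simp [(ordAt_eq_zero_iff hf.1 h0 _).2 hne]))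
  have hk0 : (0 : ℝ) < k := Nat.cast_pos.2 hk
  have harea : area Γ = ((4 * q₀ / k : ℚ) : ℝ) * π := by
    rw [hq] at hdeg
    push_cast at hdeg ⊢
    rw [hdeg]
    field_simp
  refine ⟨4 * q₀ / k, ?_, harea⟩
  have h1 := area_pos Γ
  rw [harea] at h1
  exact_mod_cast pos_of_mul_pos_left h1 Real.pi_pos.le

/-- **Every fibre of a quotient of forms has the same weighted count.** -/
theorem equidegree (hf : IsForm Γ k f) (hg : IsForm Γ k g) (hg0 : g ≠ 0)
    (hcommon : ∀ z, f z = 0 → g z ≠ 0) (hprop : ∀ c : ℂ, f ≠ fun z => c * g z) (c : ℂ) :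
    weightedDegree Γ (fun z => f z - c * g z) = weightedDegree Γ g ∧
      weightedDegree Γ g = k * area Γ / (4 * π) ∧ 0 < k ∧
      (∀ z, f z - c * g z = 0 → g z ≠ 0) ∧
      (∀ z, g z ≠ 0 → analyticOrderNatAt
        (fun w => (f ∘ ofComplex) w / (g ∘ ofComplex) w - c) (z : ℂ) =
          ordAt (fun u => f u - c * g u) z) ∧
      ∃ z, g z ≠ 0 ∧ f z / g z = c := by
  set φ : ℍ → ℂ := fun z => f z - c * g z
  have hφ : IsForm Γ k φ := (forms Γ k).sub_mem hf ((forms Γ k).smul_mem c hg)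
  have hφ0 : φ ≠ 0 := fun h => hprop c (funext fun z => sub_eq_zero.1 (congrFun h z))
  have hgz : ∀ z, φ z = 0 → g z ≠ 0 := fun z hz hgz => hcommon z (by
    simpa [φ, hgz] using hz) hgz
  have hk : 0 < k := by
    rcases lt_trichotomy k 0 with h | h | h
    · exact absurd (eq_zero_of_neg h hg) hg0
    · subst h
      obtain ⟨a, ha⟩ := eq_const_of_weight_zero hf
      obtain ⟨b, hb⟩ := eq_const_of_weight_zero hg
      have hb0 : b ≠ 0 := fun h => hg0 (by rw [hb, h]; rfl)
      exact absurd (by rw [ha, hb]; funext z; field_simp) (hprop (a / b))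
    · exact h
  obtain ⟨hfin, hdeg⟩ := degree_formula hφ hφ0
  refine ⟨hdeg.trans (degree_formula hg hg0).2.symm, (degree_formula hg hg0).2, hk, hgz,
    fun z hz => ?_, ?_⟩
  · have hz' : (g ∘ ofComplex) (z : ℂ) ≠ 0 := by simpa using hz
    have hGa := analyticAt_ext hg.1 z
    have e : (fun w => (f ∘ ofComplex) w / (g ∘ ofComplex) w - c) =ᶠ[𝓝 (z : ℂ)]
        (φ ∘ ofComplex) * (g ∘ ofComplex)⁻¹ := by
      filter_upwards [hGa.continuousAt.eventually_ne hz'] with w hw
      simp only [φ, Function.comp_apply, Pi.mul_apply, Pi.inv_apply] at hw ⊢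
      field_simp
    rw [analyticOrderNatAt, analyticOrderAt_congr e, analyticOrderAt_mul (analyticAt_ext hφ.1 z)
      (hGa.inv hz'), (analyticOrderAt_eq_zero (f := (g ∘ ofComplex)⁻¹)).2
        (.inr (by simpa using hz')), add_zero]
    rfl
  · obtain ⟨x, hx⟩ : ∃ x : Orb Γ, φ x.out = 0 := by
      by_contra hne
      push Not at hne
      have hz : weightedDegree Γ φ = 0 := finsum_eq_zero_of_forall_eq_zero fun x => by
        simp [(ordAt_eq_zero_iff hφ.1 hφ0 _).2 (hne x)]
      rw [hdeg] at hz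
      have : 0 < (k : ℝ) * area Γ / (4 * π) :=
        div_pos (mul_pos (Int.cast_pos.2 hk) (area_pos Γ)) (by positivity)
      linarith
    exact ⟨x.out, hgz _ hx, (div_eq_iff (hgz _ hx)).2 (sub_eq_zero.1 hx)⟩

end FA.CocompactDegree

end
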