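import Fermat.Agent.CocompactDegree.Partition

/-!
# Measurable transversals and the area of the quotient

A measurable set with one point in every orbit exists, and all of them have the same invariant
area, a positive multiple of the integral of a partition of unity.
-/

set_option autoImplicit false
set_option linter.unusedSectionVars false
set_option linter.style.haveILetI false

noncomputable section

open MeasureTheory Set Filter Topology Complex
open UpperHalfPlane hiding I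
open FA.CocompactForms
open scoped MatrixGroups ENNReal NNReal

namespace FA.CocompactDegree

variable (Γ : Subgroup SL(2, ℝ)) [DiscreteTopology Γ]

/-- A measurable set with one point in every orbit. -/
def IsFundSet (D : Set ℍ) : Prop :=
  MeasurableSet D ∧ ∀ z : ℍ, ∃! w, w ∈ D ∧ w ∈ MulAction.orbit Γ z

theorem exists_fundSet : ∃ D, IsFundSet Γ D := by
  classical
  haveI := countable_group Γ
  set B : Set (Set ℍ) := insert ∅
    {b | b ∈ TopologicalSpace.countableBasis ℍ ∧ ∀ γ : Γ, (∃ x ∈ b, γ • x ∈ b) → γ ∈ triv Γ}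
  have hBc : B.Countable :=
    ((TopologicalSpace.countable_countableBasis ℍ).mono fun _ h => h.1).insert ∅
  obtain ⟨b, hb⟩ := hBc.exists_eq_range (insert_nonempty _ _)
  have hbo : ∀ n, IsOpen (b n) := fun n => by
    rcases (hb ▸ mem_range_self n : b n ∈ B) with h | h
    · rw [h]
      exact isOpen_empty
    · exact TopologicalSpace.isOpen_of_mem_countableBasis h.1
  have hbs : ∀ n, ∀ γ : Γ, (∃ x ∈ b n, γ • x ∈ b n) → γ ∈ triv Γ := fun n => by
    rcases (hb ▸ mem_range_self n : b n ∈ B) with h | h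
    · simp [h]
    · exact h.2
  set L : ℕ → Set ℍ := fun n => b n \ ⋃ m < n, ⋃ γ : Γ, (γ • ·) '' b m
  have hL : ∀ n, MeasurableSet (L n) := fun n => (hbo n).measurableSet.diff
    (isOpen_biUnion fun m _ => isOpen_iUnion fun γ =>
      (Homeomorph.smul γ).isOpenMap _ (hbo m)).measurableSet
  set F : Set ℍ := {z ∈ fixSet Γ | (Quotient.mk'' z : MulAction.orbitRel.Quotient Γ ℍ).out = z}
  have hFc : F.Countable := (countable_fixSet Γ).mono fun _ h => h.1
  have hLfix : ∀ n, ∀ z ∈ L n, z ∉ fixSet Γ := fun n z hz ⟨γ, hγz, hγ⟩ =>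
    hγ (hbs n γ ⟨z, hz.1, hγz.symm ▸ hz.1⟩)
  have hlayer : ∀ n m, ∀ w ∈ L n, ∀ γ : Γ, γ • w ∈ L m → γ • w = w := fun n m w hw γ hm => by
    rcases lt_trichotomy m n with h | h | h
    · exact (hw.2 (mem_iUnion₂.2
        ⟨m, h, mem_iUnion.2 ⟨γ⁻¹, γ • w, hm.1, inv_smul_smul γ w⟩⟩)).elim
    · exact (mem_triv Γ).1 (hbs m γ ⟨w, h ▸ hw.1, hm.1⟩) w
    · exact (hm.2 (mem_iUnion₂.2 ⟨n, h, mem_iUnion.2 ⟨γ, w, hw.1, rfl⟩⟩)).elim
  refine ⟨(⋃ n, L n) ∪ F, (MeasurableSet.iUnion hL).union hFc.measurableSet, fun z => ?_⟩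
  by_cases hz : z ∈ fixSet Γ
  · set x : MulAction.orbitRel.Quotient Γ ℍ := Quotient.mk'' z
    have hx : x.out ∈ MulAction.orbit Γ z := Quotient.mk_out (s := MulAction.orbitRel Γ ℍ) z
    obtain ⟨δ, hδ⟩ := hx
    refine ⟨x.out, ⟨.inr ⟨?_, by rw [Quotient.out_eq']⟩, δ, hδ⟩, ?_⟩
    · rw [← hδ]
      exact smul_mem_fixSet Γ hz δ
    rintro w ⟨hw, γ, rfl⟩
    rcases hw with hw | hw
    · obtain ⟨n, hn⟩ := mem_iUnion.1 hw
      exact absurd (smul_mem_fixSet Γ hz γ) (hLfix n _ hn)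
    · rw [← hw.2]
      exact congrArg Quotient.out (Quotient.sound' (MulAction.mem_orbit z γ))
  · have hne : ∃ n, ∃ w ∈ MulAction.orbit Γ z, w ∈ b n := by
      obtain ⟨U, hU, hUs⟩ := ProperlyDiscontinuousSMul.exists_nhds_image_smul_eq_self Γ z
      obtain ⟨c, hc, hzc, hcU⟩ :=
        (TopologicalSpace.isBasis_countableBasis ℍ).mem_nhds_iff.1 hU
      have hcB : c ∈ B := .inr ⟨hc, fun γ ⟨x, hx, hx'⟩ => by_contra fun hγ =>
        hz ⟨γ, hUs γ ⟨γ • x, ⟨x, hcU hx, rfl⟩, hcU hx'⟩, hγ⟩⟩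
      obtain ⟨n, rfl⟩ := hb ▸ hcB
      exact ⟨n, z, MulAction.mem_orbit_self z, hzc⟩
    obtain ⟨w, hw, hwn⟩ := Nat.find_spec hne
    have hwL : w ∈ L (Nat.find hne) := ⟨hwn, fun h => by
      obtain ⟨m, hm, hmem⟩ := mem_iUnion₂.1 h
      obtain ⟨γ, u, hu, hux⟩ := mem_iUnion.1 hmem
      refine Nat.find_min hne hm ⟨u, ?_, hu⟩
      rw [MulAction.mem_orbit_iff] at hw ⊢
      obtain ⟨δ, rfl⟩ := hw
      exact ⟨γ⁻¹ * δ, by rw [mul_smul, ← hux, inv_smul_smul]⟩⟩
    refine ⟨w, ⟨.inl (mem_iUnion.2 ⟨_, hwL⟩), hw⟩, ?_⟩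
    rintro w' ⟨hw', hw'z⟩
    rw [← MulAction.orbit_eq_iff] at hw hw'z
    obtain ⟨γ, rfl⟩ : w' ∈ MulAction.orbit Γ w := by
      rw [hw, ← hw'z]
      exact MulAction.mem_orbit_self w'
    rcases hw' with h | h
    · obtain ⟨m, hm⟩ := mem_iUnion.1 h
      exact hlayer _ m w hwL γ hm
    · refine absurd ?_ (hLfix _ w hwL)
      simpa using smul_mem_fixSet Γ h.1 γ⁻¹

variable {Γ} {ψ : ℂ → ℝ} {G : Finset Γ}

theorem IsPartition.continuous_restrict (h : IsPartition Γ ψ G) :
    Continuous fun z : ℍ => ψ z :=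
  h.contDiff.continuous.comp UpperHalfPlane.continuous_coe

theorem IsPartition.hasCompactSupport_restrict (h : IsPartition Γ ψ G) :
    HasCompactSupport fun z : ℍ => ψ z := by
  refine HasCompactSupport.intro (UpperHalfPlane.isEmbedding_coe.isInducing.isCompact_preimage'
    h.compact.isCompact (h.subset.trans_eq UpperHalfPlane.range_coe.symm)) fun z hz => ?_
  exact image_eq_zero_of_notMem_tsupport hz

theorem IsPartition.integrable (h : IsPartition Γ ψ G) : Integrable fun z : ℍ => ψ z :=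
  h.continuous_restrict.integrable_of_hasCompactSupport h.hasCompactSupport_restrict

theorem IsPartition.integral_pos (h : IsPartition Γ ψ G) : 0 < ∫ z : ℍ, ψ z := by
  obtain ⟨γ, hγ⟩ : ∃ γ : Γ, ψ ((γ • UpperHalfPlane.I : ℍ) : ℂ) ≠ 0 := by
    by_contra hne
    push Not at hne
    have := (h.hasSum UpperHalfPlane.I).tsum_eq
    simp only [hne, tsum_zero] at this
    exact zero_ne_one this
  have hpos := Continuous.integral_pos_of_hasCompactSupport_nonneg_nonzero
    (μ := (volume : Measure ℂ)) (f := fun w : ℂ => ψ w * (w.im ^ 2)⁻¹)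
    (x := (γ • UpperHalfPlane.I : ℍ))
    (continuous_iff_continuousAt.2 fun w => by
      by_cases hw : w ∈ tsupport ψ
      · exact h.contDiff.continuous.continuousAt.mul
          (ContinuousAt.inv₀ (by fun_prop) (pow_ne_zero _ (ne_of_gt (h.subset hw))))
      · refine (continuousAt_const (y := (0 : ℝ))).congr ?_
        filter_upwards [(isClosed_tsupport ψ).isOpen_compl.mem_nhds hw] with u hu
        rw [image_eq_zero_of_notMem_tsupport hu, zero_mul])
    h.compact.mul_right (fun w => mul_nonneg (h.nonneg w) (by positivity))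
    (mul_ne_zero hγ (inv_ne_zero (pow_ne_zero _ (γ • UpperHalfPlane.I : ℍ).im_ne_zero)))
  rwa [integral_uhp fun w hw => by
      rw [image_eq_zero_of_notMem_tsupport fun ht => absurd (h.subset ht) hw.not_gt, zero_mul],
    integral_congr_ae (g := fun z : ℍ => ψ z) (.of_forall fun z => by
      simp [field])] at hpos

/-- **Invariant functions on a transversal.** -/
theorem lintegral_fundSet (h : IsPartition Γ ψ G) {D : Set ℍ} (hD : IsFundSet Γ D)
    {F : ℍ → ℝ≥0∞} (hF : Measurable F) (hinv : ∀ (γ : Γ) (z : ℍ), F (γ • z) = F z) :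
    ∫⁻ z in D, F z = trivCard Γ * ∫⁻ z : ℍ, ENNReal.ofReal (ψ z) * F z := by
  haveI := countable_group Γ
  set g : ℍ → ℝ≥0∞ := fun z => ENNReal.ofReal (ψ z)
  have hg : Measurable g := ENNReal.measurable_ofReal.comp h.continuous_restrict.measurable
  have hone : ∀ z : ℍ, ∑' γ : Γ, g (γ • z) = 1 := fun z => by
    rw [← ENNReal.ofReal_tsum_of_nonneg (fun γ => h.nonneg _) (h.hasSum z).summable,
      (h.hasSum z).tsum_eq, ENNReal.ofReal_one]
  have hcount : ∀ᵐ z : ℍ, ∑' γ : Γ, D.indicator (1 : ℍ → ℝ≥0∞) (γ⁻¹ • z) = trivCard Γ := by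
    filter_upwards [compl_mem_ae_iff.2 (volume_fixSet Γ)] with z hz
    obtain ⟨w, ⟨hwD, δ, hδ⟩, huniq⟩ := hD.2 z
    have hset : ∀ γ : Γ, γ⁻¹ • z ∈ D ↔ γ * δ ∈ triv Γ := by
      intro γ
      rw [← stabilizer_eq_triv Γ hz, MulAction.mem_stabilizer_iff, mul_smul]
      constructor
      · intro hγ
        rw [show δ • z = γ⁻¹ • z from hδ.trans (huniq _ ⟨hγ, γ⁻¹, rfl⟩).symm, smul_inv_smul]
      · intro e
        rw [← e, inv_smul_smul, show δ • z = w from hδ]
        exact hwD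
    have hterm : ∀ γ : Γ, D.indicator (1 : ℍ → ℝ≥0∞) (γ⁻¹ • z) =
        (triv Γ : Set Γ).indicator (1 : Γ → ℝ≥0∞) (γ * δ) := fun γ => by
      by_cases hγ : γ⁻¹ • z ∈ D
      · rw [indicator_of_mem hγ, indicator_of_mem (SetLike.mem_coe.2 ((hset γ).1 hγ))]
        rfl
      · rw [indicator_of_notMem hγ,
          indicator_of_notMem (fun h' => hγ ((hset γ).2 (SetLike.mem_coe.1 h')))]
    haveI : Finite (triv Γ) := (Nat.card_pos_iff.1 (trivCard_pos Γ)).2
    haveI := Fintype.ofFinite (triv Γ)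
    rw [tsum_congr hterm]
    refine ((Equiv.mulRight δ).tsum_eq ((triv Γ : Set Γ).indicator (1 : Γ → ℝ≥0∞))).trans ?_
    rw [← tsum_subtype (triv Γ : Set Γ) (1 : Γ → ℝ≥0∞)]
    show ∑' x : triv Γ, (1 : ℝ≥0∞) = _
    rw [tsum_fintype, Finset.sum_const, Finset.card_univ, trivCard, Nat.card_eq_fintype_card,
      nsmul_eq_mul, mul_one]
  calc ∫⁻ z in D, F z = ∫⁻ z in D, ∑' γ : Γ, g (γ • z) * F z := by
        simp_rw [ENNReal.tsum_mul_right, hone, one_mul]
    _ = ∑' γ : Γ, ∫⁻ z : ℍ, D.indicator (1 : ℍ → ℝ≥0∞) z * (g (γ • z) * F z) := by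
        rw [← lintegral_indicator hD.1, ← lintegral_tsum fun γ => ?_]
        · refine lintegral_congr fun z => ?_
          by_cases hz : z ∈ D <;> simp [hz]
        · exact ((measurable_one.indicator hD.1).mul
            ((hg.comp (continuous_const_smul γ).measurable).mul hF)).aemeasurable
    _ = ∑' γ : Γ, ∫⁻ z : ℍ, D.indicator (1 : ℍ → ℝ≥0∞) (γ⁻¹ • z) * (g z * F z) := by
        refine tsum_congr fun γ => ?_
        rw [← (measurePreserving_sl ((γ⁻¹ : Γ) : SL(2, ℝ))).lintegral_comp_emb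
          (measurableEmbedding_sl _)]
        simp only [← Subgroup.smul_def, smul_inv_smul, hinv]
    _ = ∫⁻ z : ℍ, (trivCard Γ : ℝ≥0∞) * (g z * F z) := by
        refine (lintegral_tsum (f := fun (γ : Γ) (z : ℍ) =>
          D.indicator (1 : ℍ → ℝ≥0∞) (γ⁻¹ • z) * (g z * F z)) fun γ =>
          ((measurable_one.indicator hD.1).comp
            (continuous_const_smul γ⁻¹).measurable |>.mul (hg.mul hF)).aemeasurable).symm.trans ?_
        refine lintegral_congr_ae (hcount.mono fun z hz => ?_)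
        dsimp only
        rw [ENNReal.tsum_mul_right, hz]
    _ = _ := lintegral_const_mul _ (hg.mul hF)

/-- **The area of a transversal.** -/
theorem volume_fundSet (h : IsPartition Γ ψ G) {D : Set ℍ} (hD : IsFundSet Γ D) :
    volume D = ENNReal.ofReal (trivCard Γ * ∫ z : ℍ, ψ z) := by
  have e := lintegral_fundSet h hD measurable_const (F := fun _ => 1) fun _ _ => rfl
  simp only [setLIntegral_one, mul_one] at e
  rw [e, ← ofReal_integral_eq_lintegral_ofReal h.integrable (.of_forall fun z => h.nonneg _),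
    ENNReal.ofReal_mul (Nat.cast_nonneg _), ENNReal.ofReal_natCast]

variable (Γ)

/-- **The area of the quotient.** -/
def area : ℝ := (volume (exists_fundSet Γ).choose).toReal

variable [CompactSpace (SL(2, ℝ) ⧸ Γ)]

theorem area_eq {ψ : ℂ → ℝ} {G : Finset Γ} (h : IsPartition Γ ψ G) :
    area Γ = trivCard Γ * ∫ z : ℍ, ψ z := by
  rw [area, volume_fundSet h (exists_fundSet Γ).choose_spec, ENNReal.toReal_ofReal
    (mul_nonneg (Nat.cast_nonneg _) h.integral_pos.le)]

theorem area_pos : 0 < area Γ := by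
  obtain ⟨ψ, G, h⟩ := exists_partition Γ
  rw [area_eq Γ h]
  exact mul_pos (Nat.cast_pos.2 (trivCard_pos Γ)) h.integral_pos

theorem volume_eq_area {D : Set ℍ} (hD : IsFundSet Γ D) : volume D = ENNReal.ofReal (area Γ) := by
  obtain ⟨ψ, G, h⟩ := exists_partition Γ
  rw [area_eq Γ h, volume_fundSet h hD]

end FA.CocompactDegree

end
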