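import Fermat.Agent.CocompactDegree.Pompeiu
import Fermat.Agent.CocompactDegree.Transversal
import Mathlib.Analysis.Analytic.IsolatedZeros

/-!
# The degree formula

For a nonzero form of weight `k` on a cocompact group the weighted number of zeros in a transversal
is `k A / (4 π)`, `A` the area.  The integral of the invariant combination
`F' / F + k / (z - conj z)` against the antiholomorphic derivative of a partition of unity
vanishes, and equals both sides.
-/

set_option autoImplicit false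
set_option linter.unusedSectionVars false
set_option linter.style.haveILetI false

noncomputable section

open MeasureTheory Set Filter Topology Complex
open UpperHalfPlane hiding I
open FA.CocompactForms
open scoped MatrixGroups Manifold Real ComplexConjugate

namespace FA.CocompactDegree

/-- The order of vanishing. -/
def ordAt (f : ℍ → ℂ) (z : ℍ) : ℕ := analyticOrderNatAt (f ∘ ofComplex) (z : ℂ)

variable (Γ : Subgroup SL(2, ℝ))

/-- The orbits. -/
abbrev Orb : Type := MulAction.orbitRel.Quotient Γ ℍ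

/-- The number of zeros in a transversal, weighted by the orders of the stabilisers. -/
def weightedDegree (f : ℍ → ℂ) : ℝ :=
  ∑ᶠ x : Orb Γ, (ordAt f x.out : ℝ) / ramIndex Γ x.out

/-! ### Holomorphic functions on the upper half plane -/

section Holomorphic

variable {f : ℍ → ℂ}

theorem differentiableOn_ext (hf : MDiff f) :
    DifferentiableOn ℂ (f ∘ ofComplex) {z : ℂ | 0 < z.im} :=
  UpperHalfPlane.mdifferentiable_iff.1 hf

theorem analyticAt_ext (hf : MDiff f) (z : ℍ) : AnalyticAt ℂ (f ∘ ofComplex) (z : ℂ) :=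
  (differentiableOn_ext hf).analyticAt (isOpen_uhp.mem_nhds z.im_pos)

theorem order_ne_top (hf : MDiff f) (h0 : f ≠ 0) (z : ℍ) :
    analyticOrderAt (f ∘ ofComplex) (z : ℂ) ≠ ⊤ := fun h => h0 (funext fun w => by
  have e := AnalyticOnNhd.eqOn_zero_of_preconnected_of_eventuallyEq_zero
    ((differentiableOn_ext hf).analyticOnNhd isOpen_uhp) (convex_halfSpace_im_gt 0).isPreconnected
    z.im_pos (analyticOrderAt_eq_top.1 h) w.im_pos
  simpa using e)

theorem ordAt_eq_zero_iff (hf : MDiff f) (h0 : f ≠ 0) (z : ℍ) : ordAt f z = 0 ↔ f z ≠ 0 := by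
  constructor
  · intro h hz
    have h' : analyticOrderAt (f ∘ ofComplex) (z : ℂ) = 0 := by
      rw [← ENat.natCast_toNat (order_ne_top hf h0 z)]
      exact_mod_cast h
    rcases analyticOrderAt_eq_zero.1 h' with ha | ha
    · exact ha (analyticAt_ext hf z)
    · exact ha (by simpa using hz)
  · intro hz
    rw [ordAt, analyticOrderNatAt, analyticOrderAt_eq_zero.2 (.inr (by simpa using hz))]
    rfl

theorem finite_zeros (hf : MDiff f) (h0 : f ≠ 0) {C : Set ℂ} (hC : IsCompact C)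
    (hsub : C ⊆ {z : ℂ | 0 < z.im}) : {z ∈ C | (f ∘ ofComplex) z = 0}.Finite := by
  have hiso : ∀ z ∈ C, {z' | z' = z ∨ (f ∘ ofComplex) z' ≠ 0} ∈ 𝓝 z := fun z hz => by
    rcases ((differentiableOn_ext hf).analyticAt (isOpen_uhp.mem_nhds (hsub hz))
      ).eventually_eq_zero_or_eventually_ne_zero with h | h
    · exact absurd (analyticOrderAt_eq_top.2 h) (order_ne_top hf h0 ⟨z, hsub hz⟩)
    · filter_upwards [eventually_nhdsWithin_iff.1 h] with z' hz'
      exact or_iff_not_imp_left.2 hz'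
  obtain ⟨t, -, hcover⟩ := hC.elim_nhds_subcover _ hiso
  refine t.finite_toSet.subset fun z ⟨hz, hz0⟩ => ?_
  obtain ⟨x, hx, rfl | h⟩ := mem_iUnion₂.1 (hcover hz)
  · exact hx
  · exact absurd hz0 h

end Holomorphic

theorem im_mob_pos (g : SL(2, ℝ)) {w : ℂ} (hw : 0 < w.im) : 0 < (mob g w).im := by
  have h := (g • (⟨w, hw⟩ : ℍ)).im_pos
  rwa [← UpperHalfPlane.coe_im, coe_smul_eq_mob] at h

theorem hasDerivAt_jac (g : SL(2, ℝ)) (w : ℂ) : HasDerivAt (jac g) (g 1 0 : ℂ) w := by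
  show HasDerivAt (fun z : ℂ => (g 1 0 : ℂ) * z + (g 1 1 : ℂ)) _ w
  convert! ((hasDerivAt_id' w).const_mul (g 1 0 : ℂ)).add_const (g 1 1 : ℂ) using 1
  rw [mul_one]

theorem hasDerivAt_mob (g : SL(2, ℝ)) {w : ℂ} (hw : 0 < w.im) :
    HasDerivAt (mob g) (jac g w ^ 2)⁻¹ w := by
  have hj := hasDerivAt_jac g w
  have hn : HasDerivAt (fun w : ℂ => (g 0 0 : ℂ) * w + (g 0 1 : ℂ)) (g 0 0 : ℂ) w := by
    simpa using ((hasDerivAt_id w).const_mul (g 0 0 : ℂ)).add_const (g 0 1 : ℂ)
  have hdet : (g 0 0 : ℂ) * g 1 1 - g 0 1 * g 1 0 = 1 := by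
    have h := g.prop
    rw [Matrix.det_fin_two] at h
    exact_mod_cast h
  convert! hn.div hj (jac_ne_zero g (ne_of_gt hw)) using 1
  rw [inv_eq_one_div, ← hdet, jac]
  ring

theorem analyticAt_mob (g : SL(2, ℝ)) {w : ℂ} (hw : 0 < w.im) : AnalyticAt ℂ (mob g) w :=
  DifferentiableOn.analyticAt (s := {z : ℂ | 0 < z.im})
    (fun _ hz => (hasDerivAt_mob g hz).differentiableAt.differentiableWithinAt)
    (isOpen_uhp.mem_nhds hw)

variable {Γ} {k : ℤ} {f : ℍ → ℂ}

theorem ext_mob (hf : IsForm Γ k f) (γ : Γ) {w : ℂ} (hw : 0 < w.im) :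
    (f ∘ ofComplex) (mob (γ : SL(2, ℝ)) w) =
      jac (γ : SL(2, ℝ)) w ^ k * (f ∘ ofComplex) w := by
  have h := hf.2 (γ : SL(2, ℝ)) γ.2 ⟨w, hw⟩
  rw [Function.comp_apply, Function.comp_apply, ofComplex_apply_of_im_pos hw,
    ← coe_smul_eq_mob (γ : SL(2, ℝ)) ⟨w, hw⟩, ofComplex_apply, h]

theorem ordAt_smul (hf : IsForm Γ k f) (γ : Γ) (z : ℍ) : ordAt f (γ • z) = ordAt f z := by
  have hne := jac_ne_zero (γ : SL(2, ℝ)) z.im_ne_zero
  have hd : deriv (mob (γ : SL(2, ℝ))) (z : ℂ) ≠ 0 := by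
    rw [(hasDerivAt_mob _ z.im_pos).deriv]
    exact inv_ne_zero (pow_ne_zero _ hne)
  have hj : AnalyticAt ℂ (jac (γ : SL(2, ℝ))) (z : ℂ) := by
    unfold jac
    fun_prop
  have e : (f ∘ ofComplex) ∘ mob (γ : SL(2, ℝ)) =ᶠ[𝓝 (z : ℂ)]
      (fun w => jac (γ : SL(2, ℝ)) w ^ k) * (f ∘ ofComplex) :=
    eventually_of_mem (isOpen_uhp.mem_nhds z.im_pos) fun w hw => ext_mob hf γ hw
  rw [ordAt, ordAt, analyticOrderNatAt, analyticOrderNatAt, Subgroup.smul_def, coe_smul_eq_mob,
    ← analyticOrderAt_comp_of_deriv_ne_zero (analyticAt_mob _ z.im_pos) hd,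
    analyticOrderAt_congr e, analyticOrderAt_mul
      (f := fun w => jac (γ : SL(2, ℝ)) w ^ k) (hj.zpow hne) (analyticAt_ext hf.1 z),
    (analyticOrderAt_eq_zero (f := fun w => jac (γ : SL(2, ℝ)) w ^ k)).2
      (.inr (zpow_ne_zero _ hne)), zero_add]

/-- `F' / F + k / (z - conj z)`, and zero at the zeros of `F`. -/
def logVec (k : ℤ) (F : ℂ → ℂ) (z : ℂ) : ℂ :=
  if F z = 0 then 0 else deriv F z / F z + k / (z - conj z)

theorem logVec_mob (hf : IsForm Γ k f) (γ : Γ) {w : ℂ} (hw : 0 < w.im) :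
    logVec k (f ∘ ofComplex) (mob (γ : SL(2, ℝ)) w) =
      jac (γ : SL(2, ℝ)) w ^ 2 * logVec k (f ∘ ofComplex) w := by
  set g : SL(2, ℝ) := (γ : SL(2, ℝ))
  set F := f ∘ ofComplex
  have hne := jac_ne_zero g (ne_of_gt hw)
  have hF : F (mob g w) = jac g w ^ k * F w := ext_mob hf γ hw
  by_cases h0 : F w = 0
  · simp [logVec, hF, h0]
  have h1 : F (mob g w) ≠ 0 := by
    rw [hF]
    exact mul_ne_zero (zpow_ne_zero _ hne) h0
  rw [logVec, logVec, if_neg h1, if_neg h0]
  have hj := hasDerivAt_jac g w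
  have hl : HasDerivAt (F ∘ mob g) (deriv F (mob g w) * (jac g w ^ 2)⁻¹) w :=
    ((differentiableOn_ext hf.1).differentiableAt
      (isOpen_uhp.mem_nhds (im_mob_pos g hw))).hasDerivAt.comp w (hasDerivAt_mob g hw)
  have hr : HasDerivAt (fun u => jac g u ^ k * F u)
      ((k : ℂ) * jac g w ^ (k - 1) * (g 1 0 : ℂ) * F w + jac g w ^ k * deriv F w) w :=
    ((hasDerivAt_zpow k _ (.inl hne)).comp w hj).mul
      ((differentiableOn_ext hf.1).differentiableAt (isOpen_uhp.mem_nhds hw)).hasDerivAt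
  have key := hl.unique (hr.congr_of_eventuallyEq
    (eventually_of_mem (isOpen_uhp.mem_nhds hw) fun u hu => ext_mob hf γ hu))
  rw [eq_comm, ← div_eq_mul_inv, eq_div_iff (pow_ne_zero _ hne), zpow_sub_one₀ hne] at key
  have hy : (w.im : ℂ) ≠ 0 := ofReal_ne_zero.2 (ne_of_gt hw)
  have him : ((mob g w).im : ℂ) = w.im / (jac g w * conj (jac g w)) := by
    have h := im_smul_sl g ⟨w, hw⟩
    rw [← UpperHalfPlane.coe_im, coe_smul_eq_mob] at h
    replace h : (mob g w).im = w.im / ‖jac g w‖ ^ 2 := h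
    rw [h, ofReal_div, ofReal_pow, mul_conj, normSq_eq_norm_sq, ofReal_pow]
  have hconj : conj (jac g w) = jac g w - (g 1 0 : ℂ) * ((2 * w.im : ℝ) * I) := by
    have h := sub_conj w
    simp only [jac, map_add, map_mul, conj_ofReal]
    linear_combination (-(g 1 0 : ℂ)) * h
  have hne' : conj (jac g w) ≠ 0 := (map_ne_zero _).2 hne
  rw [← key, hF, sub_conj, sub_conj]
  push_cast
  rw [him]
  rw [hconj] at hne' ⊢
  field_simp
  push_cast
  ring

/-! ### The antiholomorphic derivative, once more -/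

theorem dbar_congr {φ φ' : ℂ → ℂ} {z : ℂ} (h : φ =ᶠ[𝓝 z] φ') : dbar φ z = dbar φ' z := by
  simp [dbar, h.fderiv_eq]

theorem dbar_sum {ι : Type*} {s : Finset ι} {φ : ι → ℂ → ℂ} {z : ℂ}
    (h : ∀ i ∈ s, DifferentiableAt ℝ (φ i) z) :
    dbar (fun w => ∑ i ∈ s, φ i w) z = ∑ i ∈ s, dbar (φ i) z := by
  simp [dbar, fderiv_fun_sum h, Finset.sum_add_distrib, Finset.mul_sum, Finset.sum_div,
    add_div]

theorem dbar_const (c : ℂ) (z : ℂ) : dbar (fun _ => c) z = 0 := by simp [dbar]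

variable {ψ : ℂ → ℝ} {G : Finset Γ}

/-- The complexified test function. -/
def testFun (ψ : ℂ → ℝ) (z : ℂ) : ℂ := (ψ z : ℂ)

theorem contDiff_testFun (h : IsPartition Γ ψ G) : ContDiff ℝ 1 (testFun ψ) :=
  Complex.ofRealCLM.contDiff.comp h.contDiff

theorem hasCompactSupport_testFun (h : IsPartition Γ ψ G) : HasCompactSupport (testFun ψ) :=
  h.compact.comp_left ofReal_zero

theorem tsupport_testFun (ψ : ℂ → ℝ) : tsupport (testFun ψ) ⊆ tsupport ψ :=
  closure_mono fun z hz h => hz (by simp [testFun, h])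

theorem integral_dbar_div_im (h : IsPartition Γ ψ G) :
    Integrable (fun z => dbar (testFun ψ) z / z.im) ∧
      ∫ z, dbar (testFun ψ) z / z.im = I / 2 * ((∫ z : ℍ, ψ z : ℝ) : ℂ) := by
  set Φ := testFun ψ
  have hsub : tsupport Φ ⊆ {z : ℂ | 0 < z.im} := (tsupport_testFun ψ).trans h.subset
  have hcont : ∀ (c : ℂ → ℂ), Continuous c → (∀ z ∉ tsupport Φ, c z = 0) → ∀ n : ℕ,
      Integrable fun z => c z / (z.im : ℂ) ^ n := fun c hc hc0 n => by
    refine Continuous.integrable_of_hasCompactSupport (continuous_iff_continuousAt.2 fun z => ?_)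
      (HasCompactSupport.intro (hasCompactSupport_testFun h) fun z hz => by simp [hc0 z hz])
    by_cases hz : z ∈ tsupport Φ
    · exact hc.continuousAt.div (by fun_prop)
        (pow_ne_zero _ (ofReal_ne_zero.2 (ne_of_gt (hsub hz))))
    · refine (continuousAt_const (y := (0 : ℂ))).congr ?_
      filter_upwards [(isClosed_tsupport Φ).isOpen_compl.mem_nhds hz] with u hu
      rw [hc0 u hu, zero_div]
  have h1 := hcont _ (continuous_dbar (contDiff_testFun h))
    (fun z hz => dbar_of_notMem_tsupport hz) 1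
  have h2 := hcont _ (contDiff_testFun h).continuous
    (fun z hz => image_eq_zero_of_notMem_tsupport hz) 2
  simp only [pow_one] at h1
  refine ⟨h1, ?_⟩
  set q : ℂ → ℂ := fun z => Φ z * ((z.im⁻¹ : ℝ) : ℂ) with hq
  have hqd : ContDiff ℝ 1 q := contDiff_iff_contDiffAt.2 fun z => by
    by_cases hz : z ∈ tsupport Φ
    · exact (contDiff_testFun h).contDiffAt.mul
        (Complex.ofRealCLM.contDiff.contDiffAt.comp z
          (Complex.imCLM.contDiff.contDiffAt.inv (ne_of_gt (hsub hz))))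
    · refine (contDiffAt_const (c := (0 : ℂ))).congr_of_eventuallyEq ?_
      filter_upwards [(isClosed_tsupport Φ).isOpen_compl.mem_nhds hz] with u hu
      simp [hq, image_eq_zero_of_notMem_tsupport hu]
  have hqs : HasCompactSupport q := (hasCompactSupport_testFun h).mul_right
  have hpt : ∀ z, dbar q z = dbar Φ z / z.im - I / 2 * (Φ z / (z.im : ℂ) ^ 2) := fun z => by
    by_cases hz : z ∈ tsupport Φ
    · have hy : z.im ≠ 0 := ne_of_gt (hsub hz)
      have hv : HasFDerivAt (fun u : ℂ => ((u.im⁻¹ : ℝ) : ℂ))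
          (Complex.ofRealCLM.comp ((-(z.im ^ 2)⁻¹) • Complex.imCLM)) z :=
        Complex.ofRealCLM.hasFDerivAt.comp z
          ((hasDerivAt_inv hy).comp_hasFDerivAt z Complex.imCLM.hasFDerivAt)
      have hΦ : HasFDerivAt Φ (fderiv ℝ Φ z) z :=
        ((contDiff_testFun h).differentiable one_ne_zero z).hasFDerivAt
      have hd : fderiv ℝ q z = _ := (hΦ.fun_mul hv).fderiv
      simp only [dbar, hd, _root_.add_apply, _root_.smul_apply,
        ContinuousLinearMap.coe_comp, Function.comp_apply, Complex.imCLM_apply,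
        Complex.ofRealCLM_apply, smul_eq_mul, Complex.one_im, Complex.I_im]
      push_cast
      ring
    · rw [dbar_of_notMem_tsupport hz, image_eq_zero_of_notMem_tsupport hz, dbar_of_notMem_tsupport
        fun hq' => hz (tsupport_mul_subset_left hq')]
      simp
  have h0 := integral_dbar_eq_zero hqd hqs
  simp only [hpt] at h0
  rw [integral_sub h1 (h2.const_mul _), integral_const_mul, sub_eq_zero] at h0
  rw [h0, integral_uhp fun z hz => by
    rw [image_eq_zero_of_notMem_tsupport (f := testFun ψ) fun ht => absurd (hsub ht) hz.not_gt,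
      zero_div],
    ← integral_complex_ofReal]
  congr 1
  refine integral_congr_ae (.of_forall fun z => ?_)
  simp only [testFun, Complex.real_smul, ofReal_pow, UpperHalfPlane.coe_im]
  field_simp [ofReal_ne_zero.2 z.im_ne_zero]

/-- **The basic identity.** -/
theorem sum_ord_eq [DiscreteTopology Γ] (h : IsPartition Γ ψ G) (hf : IsForm Γ k f) (h0 : f ≠ 0)
    (T : Finset ℍ) (hT : ∀ w : ℍ, (w : ℂ) ∈ tsupport ψ → f w = 0 → w ∈ T) :
    π * ∑ w ∈ T, (ordAt f w : ℝ) * ψ w = k / 4 * ∫ z : ℍ, ψ z := by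
  classical
  set F := f ∘ ofComplex with hFdef
  set Φ := testFun ψ
  have hsub : tsupport Φ ⊆ {z : ℂ | 0 < z.im} := (tsupport_testFun ψ).trans h.subset
  set S : Finset ℂ := T.image ((↑) : ℍ → ℂ) with hS
  have hz : ∀ a ∈ tsupport Φ, F a = 0 → a ∈ S := fun a ha h0' => by
    have hw := hsub ha
    refine Finset.mem_image.2 ⟨⟨a, hw⟩, hT _ (tsupport_testFun ψ ha) ?_, rfl⟩
    rwa [hFdef, Function.comp_apply, ofComplex_apply_of_im_pos hw] at h0'
  obtain ⟨hI1, hJ1⟩ := integral_logDeriv_dbar isOpen_uhp (contDiff_testFun h)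
    (hasCompactSupport_testFun h) hsub S F (differentiableOn_ext hf.1) (fun a ha => by
      obtain ⟨w, -, rfl⟩ := Finset.mem_image.1 ha
      exact ⟨w.im_pos, order_ne_top hf.1 h0 w⟩) hz
  obtain ⟨hI2, hJ2⟩ := integral_dbar_div_im h
  have hae : (fun z => logVec k F z * dbar Φ z) =ᵐ[volume]
      fun z => deriv F z / F z * dbar Φ z + (k : ℂ) / (2 * I) * (dbar Φ z / z.im) := by
    filter_upwards [compl_mem_ae_iff.2 (S.finite_toSet.measure_zero volume)] with z hzS
    by_cases hzt : z ∈ tsupport Φ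
    · rw [logVec, if_neg fun h' => hzS (hz z hzt h'), sub_conj]
      push_cast
      field_simp [ofReal_ne_zero.2 (ne_of_gt (hsub hzt))]
    · simp [dbar_of_notMem_tsupport hzt]
  have hint := (hI1.add (hI2.const_mul ((k : ℂ) / (2 * I)))).congr hae.symm
  have hJ : ∫ z, logVec k F z * dbar Φ z = 0 := by
    obtain ⟨M, hM⟩ := h.contDiff.continuous.bounded_above_of_compact_support h.compact
    set A : Γ → ℂ → ℂ := fun γ z =>
      testFun ψ (mob (γ : SL(2, ℝ)) z) * (logVec k F z * dbar Φ z)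
    have hA : ∀ γ, Integrable (A γ) := fun γ => hint.bdd_mul (c := M)
      ((Complex.continuous_ofReal.measurable.comp (h.contDiff.continuous.measurable.comp
        (by unfold mob jac; fun_prop))).aestronglyMeasurable)
      (.of_forall fun z => by simpa [testFun] using hM _)
    have hA0 : ∀ γ, ∀ z : ℂ, z.im ≤ 0 → A γ z = 0 := fun γ z hz' => by
      simp [A, dbar_of_notMem_tsupport fun ht => absurd (hsub ht) hz'.not_gt]
    have hsplit : ∀ z, logVec k F z * dbar Φ z = ∑ γ ∈ G, A γ z := fun z => by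
      by_cases hzt : z ∈ tsupport Φ
      · have e := h.sum_eq ⟨z, hsub hzt⟩ (tsupport_testFun ψ hzt)
        simp only [A, ← Finset.sum_mul]
        simp only [testFun, ← ofReal_sum, Subgroup.smul_def, coe_smul_eq_mob] at e ⊢
        rw [e, ofReal_one, one_mul]
      · simp [A, dbar_of_notMem_tsupport hzt]
    set B : Γ → ℍ → ℂ := fun γ w => w.im ^ 2 •
      (testFun ψ w * (logVec k F w * dbar (Φ ∘ mob ((γ⁻¹ : Γ) : SL(2, ℝ))) w))
    have hchange : ∀ γ : Γ, ∀ w : ℍ,
        (fun z : ℍ => z.im ^ 2 • A γ z) ((γ⁻¹ : Γ) • w) = B γ w := fun γ w => by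
      have hd := (hasDerivAt_mob ((γ⁻¹ : Γ) : SL(2, ℝ)) w.im_pos)
      have hw' : ((γ⁻¹ • w : ℍ) : ℂ) = mob ((γ⁻¹ : Γ) : SL(2, ℝ)) w := by
        rw [Subgroup.smul_def, coe_smul_eq_mob]
      have hback : mob (γ : SL(2, ℝ)) ((γ⁻¹ • w : ℍ) : ℂ) = w := by
        rw [← coe_smul_eq_mob, ← Subgroup.smul_def, smul_inv_smul]
      have hne := jac_ne_zero ((γ⁻¹ : Γ) : SL(2, ℝ)) w.im_ne_zero
      simp only [A, B, Complex.real_smul, hback]
      rw [dbar_comp_holo ((contDiff_testFun h).differentiable one_ne_zero _) hd.differentiableAt,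
        hd.deriv, hw', logVec_mob hf γ⁻¹ w.im_pos, Subgroup.smul_def, im_smul_sl]
      simp only [ofReal_pow, ofReal_div, map_inv₀, map_pow]
      have hn : ((‖jac ((γ⁻¹ : Γ) : SL(2, ℝ)) w‖ : ℝ) : ℂ) ^ 2 =
          jac ((γ⁻¹ : Γ) : SL(2, ℝ)) w * conj (jac ((γ⁻¹ : Γ) : SL(2, ℝ)) w) := by
        rw [mul_conj, normSq_eq_norm_sq, ofReal_pow]
      have hne' : conj (jac ((γ⁻¹ : Γ) : SL(2, ℝ)) w) ≠ 0 := (map_ne_zero _).2 hne
      rw [hn]
      field_simp
      rfl
    have hint' : ∀ γ, Integrable (B γ) := fun γ => by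
      have := ((measurePreserving_sl ((γ⁻¹ : Γ) : SL(2, ℝ))).integrable_comp_emb
        (measurableEmbedding_sl _)).2 ((integrable_uhp_iff (hA0 γ)).1 (hA γ))
      exact this.congr (.of_forall fun w => hchange γ w)
    have hzero : ∀ w : ℍ, ∑ γ ∈ G, B γ w = 0 := fun w => by
      simp only [B, ← Finset.smul_sum, ← Finset.mul_sum]
      by_cases hw : ψ w = 0
      · simp [testFun, hw]
      rw [← dbar_sum fun γ _ => ?_, dbar_congr (φ' := fun _ => 1) ?_, dbar_const]
      · simp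
      · have hopen : IsOpen (Function.support ψ) :=
          isOpen_ne_fun h.contDiff.continuous continuous_const
        filter_upwards [hopen.mem_nhds hw] with u hu
        have hut : u ∈ tsupport ψ := subset_closure hu
        rw [← ofReal_one, ← h.sum_eq ⟨u, h.subset hut⟩ hut, ofReal_sum]
        refine Finset.sum_nbij' (·⁻¹) (·⁻¹) h.inv_mem h.inv_mem (fun γ _ => inv_inv γ)
          (fun γ _ => inv_inv γ) fun γ _ => ?_
        simp [testFun, Φ, Subgroup.smul_def, coe_smul_eq_mob]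
      · exact ((contDiff_testFun h).differentiable one_ne_zero _).comp _
          ((hasDerivAt_mob _ w.im_pos).differentiableAt.restrictScalars ℝ)
    calc ∫ z, logVec k F z * dbar Φ z = ∑ γ ∈ G, ∫ z, A γ z := by
          simp only [hsplit]
          exact integral_finsetSum _ fun γ _ => hA γ
      _ = ∑ γ ∈ G, ∫ w, B γ w := Finset.sum_congr rfl fun γ _ => by
          rw [integral_uhp (hA0 γ), ← (measurePreserving_sl ((γ⁻¹ : Γ) : SL(2, ℝ))).integral_comp
            (measurableEmbedding_sl _)]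
          exact integral_congr_ae (.of_forall fun w => hchange γ w)
      _ = 0 := by
          rw [← integral_finsetSum _ fun γ _ => hint' γ]
          simp [hzero]
  have hsum : ∑ a ∈ S, (analyticOrderNatAt F a : ℂ) * Φ a =
      ((∑ w ∈ T, (ordAt f w : ℝ) * ψ w : ℝ) : ℂ) := by
    rw [hS, Finset.sum_image UpperHalfPlane.isEmbedding_coe.injective.injOn]
    simp [ordAt, Φ, testFun, F]
  rw [integral_congr_ae hae, integral_add hI1 (hI2.const_mul _), integral_const_mul, hJ1, hJ2,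
    hsum] at hJ
  generalize (∑ w ∈ T, (ordAt f w : ℝ) * ψ w) = X at hJ ⊢
  generalize (∫ z : ℍ, ψ z) = Y at hJ ⊢
  field_simp at hJ
  have e : ((π * X : ℝ) : ℂ) = ((k / 4 * Y : ℝ) : ℂ) := by
    push_cast
    linear_combination (-1 / 4 : ℂ) * hJ
  exact_mod_cast e

variable [DiscreteTopology Γ]

/-- The translates of a point inside a transversal of weights. -/
theorem card_stab_mul_sum (h : IsPartition Γ ψ G) (t : ℍ) (T : Finset ℍ)
    (hTo : ∀ w ∈ T, w ∈ MulAction.orbit Γ t)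
    (hT : ∀ γ : Γ, ψ ((γ • t : ℍ) : ℂ) ≠ 0 → γ • t ∈ T) :
    (Nat.card (MulAction.stabilizer Γ t) : ℝ) * ∑ w ∈ T, ψ w = 1 := by
  classical
  have hfin : {γ : Γ | γ • t ∈ T}.Finite :=
    (finite_returns Γ (isCompact_singleton (x := t)) T.finite_toSet.isCompact).subset
      fun γ hγ => ⟨t, rfl, hγ⟩
  have e : ∑' γ : Γ, ψ ((γ • t : ℍ) : ℂ) = ∑ γ ∈ hfin.toFinset, ψ ((γ • t : ℍ) : ℂ) :=
    tsum_eq_sum fun γ hγ => by_contra fun hne => hγ (hfin.mem_toFinset.2 (hT γ hne))
  rw [← (h.hasSum t).tsum_eq, e,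
    ← Finset.sum_fiberwise_of_maps_to (fun γ hγ => hfin.mem_toFinset.1 hγ), Finset.mul_sum]
  refine Finset.sum_congr rfl fun w hw => ?_
  rw [Finset.sum_congr rfl (g := fun _ => ψ w) fun γ hγ => by rw [(Finset.mem_filter.1 hγ).2],
    Finset.sum_const, nsmul_eq_mul]
  congr 2
  obtain ⟨δ, rfl⟩ := hTo w hw
  rw [← Nat.card_eq_finsetCard]
  refine Nat.card_congr ((Equiv.mulLeft δ).subtypeEquiv fun γ => ?_)
  simp only [MulAction.mem_stabilizer_iff, Equiv.coe_mulLeft, Finset.mem_filter,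
    hfin.mem_toFinset, mul_smul, smul_left_cancel_iff]
  exact ⟨fun hγ => ⟨show (δ * γ) • t ∈ T by rw [mul_smul, hγ]; exact hw, hγ⟩, fun hγ => hγ.2⟩

variable [CompactSpace (SL(2, ℝ) ⧸ Γ)]

/-- **A nonzero form vanishes on finitely many orbits, and the degree formula holds.** -/
theorem degree_formula (hf : IsForm Γ k f) (h0 : f ≠ 0) :
    {x : Orb Γ | f x.out = 0}.Finite ∧ weightedDegree Γ f = k * area Γ / (4 * π) := by
  classical
  obtain ⟨ψ, G, h⟩ := exists_partition Γ
  have hfin := finite_zeros hf.1 h0 h.compact.isCompact h.subset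
  set T := (hfin.preimage UpperHalfPlane.isEmbedding_coe.injective.injOn).toFinset
  have hT : ∀ w : ℍ, w ∈ T ↔ (w : ℂ) ∈ tsupport ψ ∧ f w = 0 := fun w => by simp [T]
  set π' : ℍ → Orb Γ := Quotient.mk''
  have hout : ∀ w : ℍ, (π' w).out ∈ MulAction.orbit Γ w :=
    fun w => Quotient.mk_out (s := MulAction.orbitRel Γ ℍ) w
  have hinv : ∀ (γ : Γ) (w : ℍ), f (γ • w) = 0 ↔ f w = 0 := fun γ w => by
    rw [Subgroup.smul_def, hf.2 _ γ.2 w, mul_eq_zero,
      or_iff_right (zpow_ne_zero _ (jac_ne_zero _ w.im_ne_zero))]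
  have hin : ∀ x : Orb Γ, f x.out = 0 → x ∈ T.image π' := fun x hx => by
    obtain ⟨γ, hγ⟩ : ∃ γ : Γ, ψ ((γ • x.out : ℍ) : ℂ) ≠ 0 := by
      by_contra hne
      push Not at hne
      have := (h.hasSum x.out).tsum_eq
      simp only [hne, tsum_zero] at this
      exact zero_ne_one this
    refine Finset.mem_image.2 ⟨γ • x.out, (hT _).2 ⟨subset_closure hγ, (hinv γ _).2 hx⟩, ?_⟩
    exact (Quotient.sound' (MulAction.mem_orbit x.out γ)).trans x.out_eq'
  refine ⟨(T.image π').finite_toSet.subset hin, ?_⟩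
  have hsupp : Function.support (fun x : Orb Γ => (ordAt f x.out : ℝ) / ramIndex Γ x.out) ⊆
      ↑(T.image π') := fun x hx => hin x (by_contra fun hne => hx (by
        simp [(ordAt_eq_zero_iff hf.1 h0 _).2 hne]))
  have hfib : ∀ x ∈ T.image π', (ordAt f x.out : ℝ) / ramIndex Γ x.out =
      trivCard Γ * ∑ w ∈ T with π' w = x, (ordAt f w : ℝ) * ψ w := fun x hx => by
    obtain ⟨v, hv, rfl⟩ := Finset.mem_image.1 hx
    have hord : ∀ w ∈ T.filter (fun w => π' w = π' v), ordAt f w = ordAt f (π' v).out :=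
      fun w hw => by
        obtain ⟨γ, hγ⟩ := hout w
        rw [(Finset.mem_filter.1 hw).2] at hγ
        rw [← hγ]
        exact (ordAt_smul hf γ w).symm
    have h1 := card_stab_mul_sum h (π' v).out (T.filter fun w => π' w = π' v) (fun w hw => by
        have h' := hout w
        rw [(Finset.mem_filter.1 hw).2] at h'
        exact MulAction.mem_orbit_symm.1 h') (fun γ hγ => Finset.mem_filter.2
      ⟨(hT _).2 ⟨subset_closure hγ, ?_⟩,
        (Quotient.sound' (MulAction.mem_orbit _ γ)).trans (π' v).out_eq'⟩)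
    · rw [← ramIndex_mul] at h1
      rw [Finset.sum_congr rfl fun w hw => by rw [hord w hw], ← Finset.mul_sum,
        div_eq_iff (Nat.cast_ne_zero.2 (ramIndex_pos Γ _).ne')]
      push_cast at h1
      linear_combination (-(ordAt f (π' v).out : ℝ)) * h1
    · obtain ⟨δ, hδ⟩ := hout v
      rw [hinv, ← hδ]
      exact (hinv δ v).2 ((hT v).1 hv).2
  rw [weightedDegree, finsum_eq_sum_of_support_subset _ hsupp, Finset.sum_congr rfl hfib,
    ← Finset.mul_sum,
    Finset.sum_fiberwise_of_maps_to (fun w hw => Finset.mem_image_of_mem π' hw), area_eq Γ h,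
    eq_div_iff (by positivity)]
  linear_combination (4 * (trivCard Γ : ℝ)) * sum_ord_eq h hf h0 T fun w hw hw0 =>
    (hT w).2 ⟨hw, hw0⟩

end FA.CocompactDegree

end
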