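import Fermat.Agent.CocompactFunctions.Series
import Fermat.Agent.CocompactForms.Bound
import Mathlib.Analysis.Calculus.BumpFunction.FiniteDimension
import Mathlib.Analysis.Complex.UpperHalfPlane.Measure
import Mathlib.Analysis.Complex.UpperHalfPlane.ProperAction
import Mathlib.MeasureTheory.Group.Action
import Mathlib.MeasureTheory.Measure.Lebesgue.Complex

/-!
# A partition of unity for a cocompact Fuchsian group

The kernel of the action, the countable set of points with nontrivial stabiliser, the invariant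
measure, and a nonnegative test function whose translates sum to one.
-/

set_option autoImplicit false
set_option linter.unusedSectionVars false
set_option linter.style.haveILetI false

noncomputable section

open MeasureTheory Set Filter Topology Complex
open UpperHalfPlane hiding I
open FA.CocompactForms
open scoped MatrixGroups ENNReal NNReal

namespace FA.CocompactDegree

theorem isOpen_uhp : IsOpen {z : ℂ | 0 < z.im} := isOpen_lt continuous_const Complex.continuous_im

/-! ### The measure -/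

theorem measurePreserving_sl (g : SL(2, ℝ)) :
    MeasurePreserving (fun z : ℍ => g • z) volume volume :=
  measurePreserving_smul (Matrix.SpecialLinearGroup.mapGL ℝ g) (volume : Measure ℍ)

theorem measurableEmbedding_sl (g : SL(2, ℝ)) : MeasurableEmbedding fun z : ℍ => g • z :=
  (Homeomorph.smul g).measurableEmbedding

theorem volume_countable {s : Set ℍ} (hs : s.Countable) : volume s = 0 := by
  rw [UpperHalfPlane.volume_eq_lintegral]
  exact setLIntegral_measure_zero _ _ ((hs.image _).measure_zero _)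

section Transfer

variable {E : Type*} [NormedAddCommGroup E] [NormedSpace ℝ E] {g : ℂ → E}

theorem integrable_uhp_iff (hg : ∀ z : ℂ, z.im ≤ 0 → g z = 0) :
    Integrable g ↔ Integrable fun z : ℍ => z.im ^ 2 • g z := by
  have h1 : IntegrableOn g (range ((↑) : ℍ → ℂ)) ↔ Integrable g :=
    ⟨fun h => h.integrable_of_forall_notMem_eq_zero fun z hz => hg z (le_of_not_gt fun hlt =>
      hz (by rw [UpperHalfPlane.range_coe]; exact hlt)), fun h => h.integrableOn⟩
  rw [← h1, IntegrableOn, ← UpperHalfPlane.measurableEmbedding_coe.map_comap,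
    UpperHalfPlane.measurableEmbedding_coe.integrable_map_iff, UpperHalfPlane.volume_def,
    integrable_withDensity_iff_integrable_smul (by fun_prop)]
  refine integrable_congr (.of_forall fun z => ?_)
  simp only [Function.comp_apply, NNReal.smul_def, smul_smul]
  simp [z.im_ne_zero]

theorem integral_uhp (hg : ∀ z : ℂ, z.im ≤ 0 → g z = 0) :
    ∫ z, g z = ∫ z : ℍ, z.im ^ 2 • g z := by
  rw [← setIntegral_eq_integral_of_forall_compl_eq_zero (s := range ((↑) : ℍ → ℂ)) fun z hz =>
      hg z (le_of_not_gt fun hlt => hz (by rw [UpperHalfPlane.range_coe]; exact hlt)),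
    ← UpperHalfPlane.measurableEmbedding_coe.map_comap,
    UpperHalfPlane.measurableEmbedding_coe.integral_map, UpperHalfPlane.volume_def,
    integral_withDensity_eq_integral_smul (by fun_prop)]
  refine integral_congr_ae (.of_forall fun z => ?_)
  simp only [NNReal.smul_def, smul_smul]
  simp [z.im_ne_zero]

end Transfer

variable (Γ : Subgroup SL(2, ℝ))

/-! ### The kernel of the action and the points with stabiliser -/

/-- The elements acting trivially. -/
def triv : Subgroup Γ := (MulAction.toPermHom Γ ℍ).ker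

theorem mem_triv {γ : Γ} : γ ∈ triv Γ ↔ ∀ z : ℍ, γ • z = z := by
  simp [triv, MonoidHom.mem_ker, Equiv.ext_iff]

/-- The points fixed by an element which does not act trivially. -/
def fixSet : Set ℍ := {z | ∃ γ : Γ, γ • z = z ∧ γ ∉ triv Γ}

/-- A fractional linear map with two fixed points in the upper half plane is the identity. -/
theorem eq_of_fixed {g : SL(2, ℝ)} {z w : ℍ} (hz : g • z = z) (hw : g • w = w) (hne : z ≠ w)
    (u : ℍ) : g • u = u := by
  have key : ∀ v : ℍ, g • v = v ↔ (g 0 0 : ℂ) * v + (g 0 1 : ℂ) = v * jac g v := fun v => by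
    rw [UpperHalfPlane.ext_iff, coe_smul_eq_mob, mob, div_eq_iff (jac_ne_zero g v.im_ne_zero)]
  rw [key] at hz hw ⊢
  simp [jac, Complex.ext_iff] at hz hw ⊢
  have hc : g 1 0 = 0 := by
    by_contra hc
    have e1 := mul_left_cancel₀ z.im_ne_zero
      (show z.im * (g 1 1 + 2 * g 1 0 * z.re) = z.im * g 0 0 by linarith [hz.2])
    have e2 := mul_left_cancel₀ w.im_ne_zero
      (show w.im * (g 1 1 + 2 * g 1 0 * w.re) = w.im * g 0 0 by linarith [hw.2])
    have hre : z.re = w.re := mul_left_cancel₀ hc (by linarith)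
    have hsq : g 1 0 * z.im ^ 2 = g 1 0 * w.im ^ 2 := by
      rw [hre] at hz
      nlinarith [hz.1, hw.1]
    have him : z.im = w.im :=
      (sq_eq_sq₀ z.im_pos.le w.im_pos.le).1 (mul_left_cancel₀ hc hsq)
    exact hne (UpperHalfPlane.ext (Complex.ext hre him))
  simp [hc] at hz hw ⊢
  have had : g 0 0 = g 1 1 := by
    have := hz.2
    field_simp at this
    linarith
  rw [had] at hz ⊢
  constructor
  · linarith [hz.1]
  · ring

theorem fixSet_subsingleton {γ : Γ} (hγ : γ ∉ triv Γ) : {z : ℍ | γ • z = z}.Subsingleton :=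
  fun _ hz _ hw => by_contra fun hne =>
    hγ ((mem_triv Γ).2 fun u => eq_of_fixed (g := (γ : SL(2, ℝ))) hz hw hne u)

theorem smul_mem_fixSet {z : ℍ} (hz : z ∈ fixSet Γ) (δ : Γ) : δ • z ∈ fixSet Γ := by
  obtain ⟨γ, hγz, hγ⟩ := hz
  refine ⟨δ * γ * δ⁻¹, by rw [mul_smul, mul_smul, inv_smul_smul, hγz], fun h => hγ ?_⟩
  rw [mem_triv] at h ⊢
  intro u
  have := h (δ • u)
  rwa [mul_smul, mul_smul, inv_smul_smul, smul_left_cancel_iff] at this

/-- The translates of a compact set meet it only finitely often. -/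
theorem finite_returns [DiscreteTopology Γ] {K L : Set ℍ} (hK : IsCompact K) (hL : IsCompact L) :
    {γ : Γ | ∃ z ∈ K, γ • z ∈ L}.Finite :=
  (ProperlyDiscontinuousSMul.finite_disjoint_inter_image hK hL).subset fun _ ⟨z, hz, hz'⟩ =>
    ⟨_, ⟨z, hz, rfl⟩, hz'⟩

variable [DiscreteTopology Γ]

theorem countable_group : Countable Γ := by
  refine Set.countable_univ_iff.1 (Set.Countable.mono (s₁ := univ)
    (fun γ _ => mem_iUnion.2 ⟨⌈FA.SLnCount.normSqSL (γ : SL(2, ℝ))⌉₊,
      Nat.le_ceil (FA.SLnCount.normSqSL (γ : SL(2, ℝ)))⟩)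
    (countable_iUnion fun n : ℕ => (FA.CocompactFunctions.finite_normSqSL_le Γ n).countable))

theorem countable_fixSet : (fixSet Γ).Countable := by
  haveI := countable_group Γ
  refine Set.Countable.mono (s₂ := ⋃ γ : {γ : Γ // γ ∉ triv Γ}, {z : ℍ | γ.1 • z = z})
    (fun z ⟨γ, hz, hγ⟩ => mem_iUnion.2 ⟨⟨γ, hγ⟩, hz⟩)
    (countable_iUnion fun γ => (fixSet_subsingleton Γ γ.2).countable)

theorem volume_fixSet : volume (fixSet Γ) = 0 := volume_countable (countable_fixSet Γ)

instance finite_stabilizer (z : ℍ) : Finite (MulAction.stabilizer Γ z) :=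
  (ProperlyDiscontinuousSMul.finite_stabilizer z).to_subtype

/-- The number of elements acting trivially. -/
def trivCard : ℕ := Nat.card (triv Γ)

theorem triv_le_stabilizer (z : ℍ) : triv Γ ≤ MulAction.stabilizer Γ z := fun _ hγ =>
  MulAction.mem_stabilizer_iff.2 ((mem_triv Γ).1 hγ z)

theorem trivCard_pos : 0 < trivCard Γ := by
  haveI : Finite (triv Γ) := Finite.of_injective _
    (Subgroup.inclusion_injective (triv_le_stabilizer Γ UpperHalfPlane.I))
  exact Nat.card_pos

/-- The order of the stabiliser of `z` modulo the elements acting trivially. -/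
def ramIndex (z : ℍ) : ℕ := Nat.card (MulAction.stabilizer Γ z) / trivCard Γ

theorem ramIndex_mul (z : ℍ) :
    ramIndex Γ z * trivCard Γ = Nat.card (MulAction.stabilizer Γ z) :=
  Nat.div_mul_cancel (Subgroup.card_dvd_of_le (triv_le_stabilizer Γ z))

theorem ramIndex_pos (z : ℍ) : 0 < ramIndex Γ z := by
  refine Nat.pos_of_ne_zero fun h => ?_
  have h' := ramIndex_mul Γ z
  rw [h, zero_mul] at h'
  exact Nat.card_pos.ne h'

theorem stabilizer_eq_triv {z : ℍ} (hz : z ∉ fixSet Γ) : MulAction.stabilizer Γ z = triv Γ :=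
  le_antisymm (fun γ hγ => by_contra fun h => hz ⟨γ, hγ, h⟩) (triv_le_stabilizer Γ z)

theorem ramIndex_eq_one {z : ℍ} (hz : z ∉ fixSet Γ) : ramIndex Γ z = 1 := by
  rw [ramIndex, stabilizer_eq_triv Γ hz]
  exact Nat.div_self (trivCard_pos Γ)

/-! ### The partition of unity -/

/-- A test function whose translates sum to one, with the elements that matter on its support. -/
structure IsPartition (ψ : ℂ → ℝ) (G : Finset Γ) : Prop where
  contDiff : ContDiff ℝ 1 ψ
  compact : HasCompactSupport ψ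
  subset : tsupport ψ ⊆ {z : ℂ | 0 < z.im}
  nonneg : ∀ z, 0 ≤ ψ z
  inv_mem : ∀ γ ∈ G, γ⁻¹ ∈ G
  hasSum : ∀ z : ℍ, HasSum (fun γ : Γ => ψ ((γ • z : ℍ) : ℂ)) 1
  sum_eq : ∀ z : ℍ, (z : ℂ) ∈ tsupport ψ → ∑ γ ∈ G, ψ ((γ • z : ℍ) : ℂ) = 1

theorem exists_partition [CompactSpace (SL(2, ℝ) ⧸ Γ)] :
    ∃ (ψ : ℂ → ℝ) (G : Finset Γ), IsPartition Γ ψ G := by
  classical
  obtain ⟨V, hVo, hCV, hVsub, hVc⟩ := exists_open_between_and_isCompact_closure
    ((isCompact_coreSet Γ).image UpperHalfPlane.continuous_coe) isOpen_uhp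
    (image_subset_iff.2 fun z _ => z.im_pos)
  obtain ⟨W, hWo, hVW, hWsub, hWc⟩ :=
    exists_open_between_and_isCompact_closure hVc isOpen_uhp hVsub
  obtain ⟨φ, hφsupp, hφd, hφr⟩ := hVo.exists_contDiff_support_eq (n := 1)
  have hφ0 : ∀ z, 0 ≤ φ z := fun z => (hφr (mem_range_self z)).1
  have hφt : tsupport φ = closure V := by rw [tsupport, hφsupp]
  set K : Set ℍ := ((↑) : ℍ → ℂ) ⁻¹' closure W with hKdef
  have hK : IsCompact K := UpperHalfPlane.isEmbedding_coe.isInducing.isCompact_preimage'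
    hWc (hWsub.trans_eq UpperHalfPlane.range_coe.symm)
  have hmemK : ∀ z : ℍ, φ z ≠ 0 → z ∈ K := fun z hz =>
    subset_closure (hVW (subset_closure (hφsupp ▸ hz)))
  have hfin := finite_returns Γ hK hK
  set G := hfin.toFinset with hG
  set S : ℂ → ℝ := fun w => ∑ γ ∈ G, φ (mob (γ : SL(2, ℝ)) w)
  have hsum : ∀ z : ℍ, Summable fun γ : Γ => φ ((γ • z : ℍ) : ℂ) := fun z => by
    refine summable_of_hasFiniteSupport
      ((finite_returns Γ (isCompact_singleton (x := z)) hK).subset ?_)
    exact fun γ hγ => ⟨z, rfl, hmemK _ hγ⟩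
  set T : ℍ → ℝ := fun z => ∑' γ : Γ, φ ((γ • z : ℍ) : ℂ) with hT
  have hTinv : ∀ (δ : Γ) z, T (δ • z) = T z := fun δ z => by
    simp only [hT, ← mul_smul]
    exact (Equiv.mulRight δ).tsum_eq fun γ : Γ => φ ((γ • z : ℍ) : ℂ)
  have hTpos : ∀ z, 0 < T z := fun z => by
    obtain ⟨γ, hγ, hz⟩ := exists_mem_coreSet Γ z
    refine (hsum z).tsum_pos (fun _ => hφ0 _) ⟨γ, hγ⟩ ((hφ0 _).lt_of_ne' ?_)
    rw [← Function.mem_support, hφsupp]
    exact hCV ⟨_, hz, rfl⟩
  have hST : ∀ z : ℍ, z ∈ K → S z = T z := fun z hz => by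
    rw [hT]
    refine Eq.trans ?_ (tsum_eq_sum (s := G) fun γ hγ => ?_).symm
    · exact Finset.sum_congr rfl fun γ _ => by rw [Subgroup.smul_def, coe_smul_eq_mob]
    · by_contra h
      exact hγ (hfin.mem_toFinset.2 ⟨z, hz, hmemK _ h⟩)
  set ψ : ℂ → ℝ := fun w => φ w / S w with hψ
  have hψt : tsupport ψ ⊆ closure V := closure_mono fun w hw => by
    rw [← hφsupp]
    exact fun h => hw (by simp [hψ, h])
  have hψd : ContDiff ℝ 1 ψ := contDiff_iff_contDiffAt.2 fun w => by
    by_cases hw : w ∈ W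
    · have hpos : 0 < w.im := hWsub (subset_closure hw)
      have hmob : ∀ γ : Γ, ContDiffAt ℝ 1 (mob (γ : SL(2, ℝ))) w := fun γ => by
        have hd : DifferentiableOn ℂ (mob (γ : SL(2, ℝ))) {z : ℂ | 0 < z.im} := fun z hz => by
          refine (DifferentiableAt.div ?_ ?_
            (jac_ne_zero _ (ne_of_gt hz))).differentiableWithinAt
          · fun_prop
          · unfold jac; fun_prop
        exact ((hd.analyticAt (isOpen_uhp.mem_nhds hpos)).contDiffAt).restrict_scalars ℝ
      refine hφd.contDiffAt.div (ContDiffAt.sum fun γ _ => hφd.contDiffAt.comp w (hmob γ)) ?_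
      rw [show S w = T ⟨w, hpos⟩ from hST ⟨w, hpos⟩ (subset_closure hw)]
      exact (hTpos _).ne'
    · refine (contDiffAt_const (c := (0 : ℝ))).congr_of_eventuallyEq ?_
      filter_upwards [isClosed_closure.isOpen_compl.mem_nhds fun h => hw (hVW h)] with z hz
      exact image_eq_zero_of_notMem_tsupport fun h => hz (hψt h)
  have hψeq : ∀ (z : ℍ) (γ : Γ), ψ ((γ • z : ℍ) : ℂ) = φ ((γ • z : ℍ) : ℂ) / T z := fun z γ => by
    by_cases h : φ ((γ • z : ℍ) : ℂ) = 0
    · simp [hψ, h]
    · simp only [hψ, hST _ (hmemK _ h), hTinv]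
  have hhas : ∀ z : ℍ, HasSum (fun γ : Γ => ψ ((γ • z : ℍ) : ℂ)) 1 := fun z => by
    simp only [hψeq z]
    have h := (hsum z).hasSum.div_const (T z)
    rwa [div_self (hTpos z).ne'] at h
  refine ⟨ψ, G, hψd, hVc.of_isClosed_subset (isClosed_tsupport ψ) hψt, hψt.trans hVsub,
    fun w => div_nonneg (hφ0 _) (Finset.sum_nonneg fun _ _ => hφ0 _), fun γ hγ => ?_, hhas,
    fun z hz => ?_⟩
  · obtain ⟨x, hx, hx'⟩ := hfin.mem_toFinset.1 hγ
    exact hfin.mem_toFinset.2 ⟨_, hx', by rwa [inv_smul_smul]⟩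
  · rw [← (hhas z).tsum_eq]
    refine (tsum_eq_sum fun γ hγ => ?_).symm
    by_contra h
    refine hγ (hfin.mem_toFinset.2 ⟨z, subset_closure (hVW (hψt hz)), hmemK _ fun h0 => h ?_⟩)
    simp [hψeq, h0]

end FA.CocompactDegree

end
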