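import Mathlib.Analysis.Analytic.Order
import Mathlib.Analysis.Calculus.LineDeriv.IntegrationByParts
import Mathlib.Analysis.Complex.CauchyIntegral
import Mathlib.Analysis.SpecialFunctions.PolarCoord
import Mathlib.MeasureTheory.Measure.Haar.NormedSpace
import Mathlib.MeasureTheory.Measure.Lebesgue.Complex

/-!
# The logarithmic derivative as a distribution

The antiholomorphic derivative of a test function, integrated against `1 / (z - a)`, gives
`-π φ a` (Cauchy and Pompeiu), so integrated against `f' / f` it gives `-π` times the sum of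
`φ` over the zeros with multiplicity.
-/

set_option autoImplicit false
set_option linter.unusedSectionVars false
set_option linter.style.haveILetI false

noncomputable section

open MeasureTheory Set Filter Topology Complex
open scoped Real ComplexConjugate ENNReal

namespace FA.CocompactDegree

/-- The antiholomorphic derivative. -/
def dbar (φ : ℂ → ℂ) (z : ℂ) : ℂ := (fderiv ℝ φ z 1 + I * fderiv ℝ φ z I) / 2

theorem dbar_of_notMem_tsupport {φ : ℂ → ℂ} {z : ℂ} (hz : z ∉ tsupport φ) : dbar φ z = 0 := by
  simp [dbar, fderiv_of_notMem_tsupport ℝ hz]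

theorem continuous_dbar {φ : ℂ → ℂ} (hφ : ContDiff ℝ 1 φ) : Continuous (dbar φ) := by
  have h := hφ.continuous_fderiv one_ne_zero
  exact ((h.clm_apply continuous_const).add
    (continuous_const.mul (h.clm_apply continuous_const))).div_const _

theorem hasCompactSupport_dbar {φ : ℂ → ℂ} (hφs : HasCompactSupport φ) :
    HasCompactSupport (dbar φ) :=
  HasCompactSupport.intro hφs fun _ hz => dbar_of_notMem_tsupport hz

theorem fderiv_of_differentiableAt {u : ℂ → ℂ} {z : ℂ} (hu : DifferentiableAt ℂ u z) (v : ℂ) :
    fderiv ℝ u z v = v * deriv u z := by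
  rw [(hu.hasDerivAt.hasFDerivAt.restrictScalars ℝ).fderiv]
  simp

theorem dbar_holo_mul {u φ : ℂ → ℂ} {z : ℂ} (hu : DifferentiableAt ℂ u z)
    (hφ : DifferentiableAt ℝ φ z) : dbar (fun w => u w * φ w) z = u z * dbar φ z := by
  have h := fderiv_fun_mul (hu.restrictScalars ℝ) hφ
  simp only [dbar, h, _root_.add_apply, _root_.smul_apply, fderiv_of_differentiableAt hu,
    smul_eq_mul]
  linear_combination (φ z * deriv u z / 2) * I_mul_I

theorem dbar_comp_holo {ψ g : ℂ → ℂ} {z : ℂ} (hψ : DifferentiableAt ℝ ψ (g z))
    (hg : DifferentiableAt ℂ g z) : dbar (ψ ∘ g) z = conj (deriv g z) * dbar ψ (g z) := by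
  have h := fderiv_comp z hψ (hg.restrictScalars ℝ)
  set L := fderiv ℝ ψ (g z)
  set c := deriv g z
  have hL : ∀ w : ℂ, L w = (w.re : ℂ) * L 1 + (w.im : ℂ) * L I := fun w => by
    conv_lhs => rw [show w = w.re • (1 : ℂ) + w.im • I by simp [Complex.real_smul]]
    rw [map_add, map_smul, map_smul, Complex.real_smul, Complex.real_smul]
  simp only [dbar, h, ContinuousLinearMap.coe_comp, Function.comp_apply,
    fderiv_of_differentiableAt hg, one_mul]
  rw [hL c, hL (I * c)]
  conv_rhs => rw [show conj c = (c.re : ℂ) - c.im * I from Complex.ext (by simp) (by simp)]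
  simp only [mul_re, I_re, zero_mul, I_im, one_mul, zero_sub, mul_im, zero_add, ofReal_neg]
  linear_combination ((c.im : ℂ) * L I / 2) * I_mul_I

theorem integral_fderiv_eq_zero {u : ℂ → ℂ} (hu : ContDiff ℝ 1 u) (hs : HasCompactSupport u)
    (v : ℂ) : ∫ z, fderiv ℝ u z v = 0 := by
  have hc : Continuous fun z => fderiv ℝ u z v :=
    (hu.continuous_fderiv one_ne_zero).clm_apply continuous_const
  have hcs : HasCompactSupport fun z => fderiv ℝ u z v := hs.fderiv_apply ℝ v
  have h := integral_mul_fderiv_eq_neg_fderiv_mul_of_integrable (μ := (volume : Measure ℂ))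
    (f := fun _ : ℂ => (1 : ℂ)) (g := u) (v := v) (by simp)
    (by simpa using hc.integrable_of_hasCompactSupport hcs)
    (by simpa using hu.continuous.integrable_of_hasCompactSupport hs)
    (fun _ _ => differentiableAt_const _) (fun x _ => hu.differentiable one_ne_zero x)
  simpa using h

theorem integral_dbar_eq_zero {u : ℂ → ℂ} (hu : ContDiff ℝ 1 u) (hs : HasCompactSupport u) :
    ∫ z, dbar u z = 0 := by
  have hi : ∀ v, Integrable fun z => fderiv ℝ u z v := fun v =>
    ((hu.continuous_fderiv one_ne_zero).clm_apply continuous_const).integrable_of_hasCompactSupport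
      (hs.fderiv_apply ℝ v)
  simp only [dbar]
  rw [integral_div, integral_add (hi 1) ((hi I).const_mul I), integral_const_mul,
    integral_fderiv_eq_zero hu hs, integral_fderiv_eq_zero hu hs, mul_zero, add_zero, zero_div]

/-- A compactly supported continuous function divided by `z - a` is integrable. -/
theorem integrable_div_sub {c : ℂ → ℂ} (hc : Continuous c) (hs : HasCompactSupport c) (a : ℂ) :
    Integrable fun z => c z / (z - a) := by
  suffices h : ∀ d : ℂ → ℂ, Continuous d → HasCompactSupport d → Integrable fun z => d z / z by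
    have h1 := (h (fun z => c (z + a)) (hc.comp (continuous_id.add continuous_const))
      (hs.comp_homeomorph (Homeomorph.addRight a))).comp_sub_right a
    simpa using h1
  intro d hd hds
  obtain ⟨M, hM⟩ := hd.bounded_above_of_compact_support hds
  obtain ⟨R, hR⟩ := (hds.isCompact.isBounded).subset_closedBall 0
  refine ⟨(hd.measurable.div measurable_id).aestronglyMeasurable, ?_⟩
  rw [HasFiniteIntegral, ← Complex.lintegral_comp_polarCoord_symm]
  calc ∫⁻ p in polarCoord.target, ENNReal.ofReal p.1 •
        ‖d (Complex.polarCoord.symm p) / Complex.polarCoord.symm p‖ₑ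
      ≤ ∫⁻ p in polarCoord.target,
          (Ioc 0 R ×ˢ Ioo (-π) π).indicator (fun _ => ENNReal.ofReal M) p := by
        refine setLIntegral_mono (by fun_prop (disch := measurability)) fun p hp => ?_
        by_cases hpR : p.1 ≤ R
        · rw [indicator_of_mem (mk_mem_prod (show p.1 ∈ Ioc 0 R from ⟨hp.1, hpR⟩) hp.2),
            smul_eq_mul, ← ofReal_norm,
            ← ENNReal.ofReal_mul hp.1.le, norm_div, Complex.norm_polarCoord_symm,
            abs_of_pos hp.1, mul_div_cancel₀ _ hp.1.ne']
          exact ENNReal.ofReal_le_ofReal (hM _)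
        · have h0 : d (Complex.polarCoord.symm p) = 0 := image_eq_zero_of_notMem_tsupport fun h =>
            hpR (by
              have := hR h
              rwa [Metric.mem_closedBall, dist_zero_right, Complex.norm_polarCoord_symm,
                abs_of_pos hp.1] at this)
          rw [h0]
          simp
    _ ≤ ENNReal.ofReal M * volume (Ioc 0 R ×ˢ Ioo (-π) π) := by
        refine (lintegral_mono' Measure.restrict_le_self le_rfl).trans ?_
        rw [lintegral_indicator (measurableSet_Ioc.prod measurableSet_Ioo), setLIntegral_const]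
    _ < ⊤ := ENNReal.mul_lt_top ENNReal.ofReal_lt_top (by
        rw [Measure.volume_eq_prod, Measure.prod_prod]
        exact ENNReal.mul_lt_top measure_Ioc_lt_top measure_Ioo_lt_top)

/-- The point `r e ^ (i θ)`. -/
def polarPt (r t : ℝ) : ℂ := r * (Real.cos t + Real.sin t * I)

theorem norm_polarPt (r t : ℝ) : ‖polarPt r t‖ = |r| := by
  rw [polarPt, ← Complex.norm_polarCoord_symm (r, t)]
  simp

theorem integral_radial {φ : ℂ → ℂ} (hφ : ContDiff ℝ 1 φ) (hφs : HasCompactSupport φ) (t : ℝ) :
    ∫ r in Ioi (0 : ℝ), fderiv ℝ φ (polarPt r t) (Real.cos t + Real.sin t * I) = -φ 0 := by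
  obtain ⟨R, hR⟩ := (hφs.isCompact.isBounded).subset_closedBall 0
  have hder : ∀ r : ℝ, HasDerivAt (fun r : ℝ => φ (polarPt r t))
      (fderiv ℝ φ (polarPt r t) (Real.cos t + Real.sin t * I)) r := fun r => by
    have h : HasDerivAt (fun r : ℝ => polarPt r t) (Real.cos t + Real.sin t * I) r := by
      simpa [polarPt] using (hasDerivAt_id r).ofReal_comp.mul_const
        ((Real.cos t : ℂ) + Real.sin t * I)
    exact ((hφ.differentiable one_ne_zero _).hasFDerivAt).comp_hasDerivAt r h
  have hout : ∀ r : ℝ, R < |r| → polarPt r t ∉ tsupport φ := fun r hr h => by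
    have := hR h
    rw [Metric.mem_closedBall, dist_zero_right, norm_polarPt] at this
    linarith
  have hc : Continuous fun r : ℝ =>
      fderiv ℝ φ (polarPt r t) (Real.cos t + Real.sin t * I) := by
    refine ((hφ.continuous_fderiv one_ne_zero).comp ?_).clm_apply continuous_const
    unfold polarPt
    fun_prop
  have hsupp : HasCompactSupport fun r : ℝ =>
      fderiv ℝ φ (polarPt r t) (Real.cos t + Real.sin t * I) := by
    refine HasCompactSupport.intro (isCompact_Icc (a := -|R|) (b := |R|)) fun r hr => ?_
    rw [fderiv_of_notMem_tsupport ℝ (hout r ((le_abs_self R).trans_lt ?_))]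
    · rfl
    · rw [mem_Icc, not_and_or, not_le, not_le] at hr
      rcases hr with h | h
      · linarith [neg_le_abs r]
      · linarith [le_abs_self r]
  have hlim : Tendsto (fun r : ℝ => φ (polarPt r t)) atTop (𝓝 0) := by
    refine tendsto_const_nhds.congr' ?_
    filter_upwards [eventually_gt_atTop (max R 0)] with r hr
    exact (image_eq_zero_of_notMem_tsupport (hout r (((le_max_left _ _).trans_lt hr).trans_le
      (le_abs_self r)))).symm
  have h := integral_Ioi_of_hasDerivAt_of_tendsto' (a := 0) (fun r _ => hder r)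
    (hc.integrable_of_hasCompactSupport hsupp).integrableOn hlim
  simpa [polarPt] using h

theorem integral_angular {φ : ℂ → ℂ} (hφ : ContDiff ℝ 1 φ) {r : ℝ} (hr : 0 < r) :
    ∫ t in Ioo (-π) π, fderiv ℝ φ (polarPt r t) (-Real.sin t + Real.cos t * I) = 0 := by
  have hder : ∀ t : ℝ, HasDerivAt (fun t : ℝ => φ (polarPt r t))
      ((r : ℂ) * fderiv ℝ φ (polarPt r t) (-Real.sin t + Real.cos t * I)) t := fun t => by
    have h : HasDerivAt (fun t : ℝ => polarPt r t) (r • (-Real.sin t + Real.cos t * I : ℂ)) t := by
      rw [Complex.real_smul]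
      convert! ((Real.hasDerivAt_cos t).ofReal_comp.add
        ((Real.hasDerivAt_sin t).ofReal_comp.mul_const I)).const_mul (r : ℂ) using 1
      · simp [ofReal_neg]
    have h2 := ((hφ.differentiable one_ne_zero _).hasFDerivAt).comp_hasDerivAt t h
    rwa [map_smul, Complex.real_smul] at h2
  have hc : Continuous fun t : ℝ =>
      fderiv ℝ φ (polarPt r t) (-Real.sin t + Real.cos t * I) := by
    refine ((hφ.continuous_fderiv one_ne_zero).comp ?_).clm_apply (by fun_prop)
    unfold polarPt
    fun_prop
  have h := intervalIntegral.integral_eq_sub_of_hasDerivAt (a := -π) (b := π)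
    (fun t _ => hder t) ((continuous_const.mul hc).intervalIntegrable _ _)
  have hper : polarPt r π = polarPt r (-π) := by simp [polarPt]
  rw [hper, sub_self, intervalIntegral.integral_const_mul, mul_eq_zero] at h
  rw [← integral_Ioc_eq_integral_Ioo, ← intervalIntegral.integral_of_le (by linarith [Real.pi_pos])]
  exact h.resolve_left (ofReal_ne_zero.2 hr.ne')

/-- **The theorem of Cauchy and Pompeiu at the origin.** -/
theorem integral_dbar_div {φ : ℂ → ℂ} (hφ : ContDiff ℝ 1 φ) (hφs : HasCompactSupport φ) :
    ∫ z, dbar φ z / z = -π * φ 0 := by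
  obtain ⟨R, hR⟩ := (hφs.isCompact.isBounded).subset_closedBall 0
  rw [← Complex.integral_comp_polarCoord_symm]
  set A : ℝ × ℝ → ℂ := fun p =>
    fderiv ℝ φ (polarPt p.1 p.2) (Real.cos p.2 + Real.sin p.2 * I) / 2
  set B : ℝ × ℝ → ℂ := fun p =>
    I * fderiv ℝ φ (polarPt p.1 p.2) (-Real.sin p.2 + Real.cos p.2 * I) / 2
  have hpt : Continuous fun p : ℝ × ℝ => polarPt p.1 p.2 := by
    unfold polarPt
    fun_prop
  have hcf := (hφ.continuous_fderiv one_ne_zero).comp hpt
  have hmem : ∀ p ∈ polarCoord.target,
      p.1 • (dbar φ (Complex.polarCoord.symm p) / Complex.polarCoord.symm p) = A p + B p := by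
    intro p hp
    rw [Complex.polarCoord_symm_apply]
    show p.1 • (dbar φ (polarPt p.1 p.2) / polarPt p.1 p.2) = _
    set e : ℂ := Real.cos p.2 + Real.sin p.2 * I
    set L := fderiv ℝ φ (polarPt p.1 p.2) with hL
    have he : conj e * e = 1 := by
      rw [mul_comm, mul_conj, normSq_add_mul_I, Real.cos_sq_add_sin_sq, ofReal_one]
    have he0 : e ≠ 0 := right_ne_zero_of_mul_eq_one he
    have h1 : L (Real.cos p.2 + Real.sin p.2 * I) =
        (Real.cos p.2 : ℂ) * L 1 + (Real.sin p.2 : ℂ) * L I := by
      rw [show (Real.cos p.2 + Real.sin p.2 * I : ℂ) = Real.cos p.2 • (1 : ℂ) + Real.sin p.2 • I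
          by simp [Complex.real_smul],
        map_add, map_smul, map_smul, Complex.real_smul, Complex.real_smul]
    have h2 : L (-Real.sin p.2 + Real.cos p.2 * I) =
        -(Real.sin p.2 : ℂ) * L 1 + (Real.cos p.2 : ℂ) * L I := by
      rw [show (-Real.sin p.2 + Real.cos p.2 * I : ℂ) =
          (-Real.sin p.2) • (1 : ℂ) + Real.cos p.2 • I by simp [Complex.real_smul],
        map_add, map_smul, map_smul, Complex.real_smul, Complex.real_smul, ofReal_neg]
    have hp0 : (p.1 : ℂ) ≠ 0 := ofReal_ne_zero.2 (ne_of_gt hp.1)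
    have hinv : e⁻¹ = conj e := inv_eq_of_mul_eq_one_left he
    have hconj : conj e = (Real.cos p.2 : ℂ) - Real.sin p.2 * I :=
      Complex.ext (by simp [e]) (by simp [e])
    simp only [A, B, ← hL, h1, h2, dbar, Complex.real_smul]
    rw [show polarPt p.1 p.2 = p.1 * e from rfl, div_mul_eq_div_div, ← mul_div_assoc,
      mul_div_cancel₀ _ hp0, div_eq_mul_inv _ e, hinv, hconj]
    linear_combination (-(Real.sin p.2 : ℂ) * L I / 2) * I_mul_I
  rw [setIntegral_congr_fun polarCoord.open_target.measurableSet hmem]
  have hbound : ∀ (d : ℝ × ℝ → ℂ), Continuous d →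
      (∀ p, R < |p.1| → d p = 0) → IntegrableOn d polarCoord.target := fun d hd h0 => by
    refine IntegrableOn.of_forall_sdiff_eq_zero
      ((hd.continuousOn.integrableOn_compact
        (isCompact_Icc.prod isCompact_Icc : IsCompact (Icc 0 |R| ×ˢ Icc (-π) π)))) ?_ fun p hp => ?_
    · exact polarCoord.open_target.measurableSet
    · refine h0 p (lt_of_not_ge fun hle => hp.2 ⟨⟨hp.1.1.le, ?_⟩, Ioo_subset_Icc_self hp.1.2⟩)
      exact (le_abs_self _).trans (hle.trans (le_abs_self R))
  have hzero : ∀ p : ℝ × ℝ, R < |p.1| → fderiv ℝ φ (polarPt p.1 p.2) = 0 := fun p hp =>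
    fderiv_of_notMem_tsupport ℝ fun h => by
      have := hR h
      rw [Metric.mem_closedBall, dist_zero_right, norm_polarPt] at this
      linarith
  have hA : IntegrableOn A polarCoord.target :=
    hbound A ((hcf.clm_apply (by fun_prop)).div_const _) fun p hp => by simp [A, hzero p hp]
  have hB : IntegrableOn B polarCoord.target :=
    hbound B ((continuous_const.mul (hcf.clm_apply (by fun_prop))).div_const _)
      fun p hp => by simp [B, hzero p hp]
  rw [integral_add hA hB]
  have hA' : ∫ p in polarCoord.target, A p = -π * φ 0 := by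
    rw [polarCoord_target, Measure.volume_eq_prod, setIntegral_prod _ (by
      rwa [← Measure.volume_eq_prod, ← polarCoord_target]), integral_integral_swap (by
      rw [Measure.prod_restrict, ← Measure.volume_eq_prod]; rwa [← polarCoord_target])]
    simp only [A, integral_div, integral_radial hφ hφs, setIntegral_const, measureReal_def,
      Real.volume_Ioo, sub_neg_eq_add, ENNReal.toReal_ofReal (add_nonneg Real.pi_pos.le
        Real.pi_pos.le), Complex.real_smul]
    push_cast
    ring
  have hB' : ∫ p in polarCoord.target, B p = 0 := by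
    rw [polarCoord_target, Measure.volume_eq_prod, setIntegral_prod _ (by
      rwa [← Measure.volume_eq_prod, ← polarCoord_target])]
    refine setIntegral_eq_zero_of_forall_eq_zero fun r hr => ?_
    simp only [B, integral_div, integral_const_mul, integral_angular hφ hr, mul_zero, zero_div]
  rw [hA', hB', add_zero]

/-- **The theorem of Cauchy and Pompeiu.** -/
theorem integral_dbar_div_sub {φ : ℂ → ℂ} (hφ : ContDiff ℝ 1 φ) (hφs : HasCompactSupport φ)
    (a : ℂ) : ∫ z, dbar φ z / (z - a) = -π * φ a := by
  rw [← integral_add_right_eq_self _ a]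
  have h := integral_dbar_div (φ := fun z => φ (z + a)) (hφ.comp (contDiff_id.add contDiff_const))
    (hφs.comp_homeomorph (Homeomorph.addRight a))
  simp only [zero_add] at h
  rw [← h]
  refine integral_congr_ae (.of_forall fun z => ?_)
  simp [dbar, fderiv_comp_add_right]

/-- A holomorphic factor times a test function supported in its domain. -/
theorem contDiff_holo_mul {u φ : ℂ → ℂ} {U : Set ℂ} (hU : IsOpen U)
    (hu : DifferentiableOn ℂ u U) (hφ : ContDiff ℝ 1 φ) (hsub : tsupport φ ⊆ U) :
    ContDiff ℝ 1 fun z => u z * φ z := by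
  refine contDiff_iff_contDiffAt.2 fun z => ?_
  by_cases hz : z ∈ U
  · exact (((hu.analyticAt (hU.mem_nhds hz)).contDiffAt).restrict_scalars ℝ).mul hφ.contDiffAt
  · have h0 : (fun w => u w * φ w) =ᶠ[𝓝 z] fun _ => 0 := by
      filter_upwards [(isClosed_tsupport φ).isOpen_compl.mem_nhds fun h => hz (hsub h)] with w hw
      rw [image_eq_zero_of_notMem_tsupport hw, mul_zero]
    exact (contDiffAt_const (c := (0 : ℂ))).congr_of_eventuallyEq h0

theorem integral_holo_dbar_eq_zero {u φ : ℂ → ℂ} {U : Set ℂ} (hU : IsOpen U)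
    (hu : DifferentiableOn ℂ u U) (hφ : ContDiff ℝ 1 φ) (hφs : HasCompactSupport φ)
    (hsub : tsupport φ ⊆ U) :
    Integrable (fun z => u z * dbar φ z) ∧ ∫ z, u z * dbar φ z = 0 := by
  have hc := contDiff_holo_mul hU hu hφ hsub
  have hs : HasCompactSupport fun z => u z * φ z := hφs.mul_left
  have e : ∀ z, u z * dbar φ z = dbar (fun w => u w * φ w) z := fun z => by
    by_cases hz : z ∈ tsupport φ
    · exact (dbar_holo_mul (hu.differentiableAt (hU.mem_nhds (hsub hz)))
        (hφ.differentiable one_ne_zero z)).symm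
    · rw [dbar_of_notMem_tsupport hz, mul_zero,
        dbar_of_notMem_tsupport fun h => hz (tsupport_mul_subset_right h)]
  simp only [e]
  exact ⟨(continuous_dbar hc).integrable_of_hasCompactSupport (hasCompactSupport_dbar hs),
    integral_dbar_eq_zero hc hs⟩

/-- **The logarithmic derivative as a distribution.** -/
theorem integral_logDeriv_dbar {U : Set ℂ} (hU : IsOpen U) {φ : ℂ → ℂ} (hφ : ContDiff ℝ 1 φ)
    (hφs : HasCompactSupport φ) (hsub : tsupport φ ⊆ U) (S : Finset ℂ) :
    ∀ f : ℂ → ℂ, DifferentiableOn ℂ f U → (∀ a ∈ S, a ∈ U ∧ analyticOrderAt f a ≠ ⊤) →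
      (∀ a ∈ tsupport φ, f a = 0 → a ∈ S) →
      Integrable (fun z => deriv f z / f z * dbar φ z) ∧
        ∫ z, deriv f z / f z * dbar φ z = -π * ∑ a ∈ S, (analyticOrderNatAt f a : ℂ) * φ a := by
  induction S using Finset.induction with
  | empty =>
    intro f hf _ hz
    set V := U ∩ f ⁻¹' {0}ᶜ
    have hV : IsOpen V := hf.continuousOn.isOpen_inter_preimage hU isClosed_singleton.isOpen_compl
    have hu : DifferentiableOn ℂ (fun z => deriv f z / f z) V :=
      ((hf.deriv hU).mono inter_subset_left).div (hf.mono inter_subset_left) fun z hz => hz.2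
    have h := integral_holo_dbar_eq_zero hV hu hφ hφs fun a ha =>
      ⟨hsub ha, fun h0 => absurd (hz a ha h0) (Finset.notMem_empty a)⟩
    simpa using h
  | @insert a S haS ih =>
    intro f hf hord hz
    obtain ⟨haU, haf⟩ := hord a (Finset.mem_insert_self a S)
    have han := hf.analyticAt (hU.mem_nhds haU)
    obtain ⟨g₀, hg₀, hg₀a, hfg₀⟩ :=
      (han.analyticOrderAt_eq_natCast (n := analyticOrderNatAt f a)).1
        (ENat.natCast_toNat haf).symm
    set m := analyticOrderNatAt f a
    classical
    set g : ℂ → ℂ := Function.update (fun z => f z / (z - a) ^ m) a (g₀ a) with hg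
    have hga : g a = g₀ a := by simp [hg]
    have hne : ∀ z, z ≠ a → g z = f z / (z - a) ^ m := fun z hz => by simp [hg, hz]
    have hloc : g =ᶠ[𝓝 a] g₀ := by
      filter_upwards [hfg₀] with z h
      rcases eq_or_ne z a with rfl | hza
      · exact hga
      · rw [hne z hza, h, smul_eq_mul, mul_div_cancel_left₀ _ (pow_ne_zero _ (sub_ne_zero.2 hza))]
    have hgd : DifferentiableOn ℂ g U := fun z hzU => by
      rcases eq_or_ne z a with rfl | hza
      · exact (hg₀.differentiableAt.congr_of_eventuallyEq hloc).differentiableWithinAt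
      · refine (DifferentiableAt.congr_of_eventuallyEq ?_ ((isOpen_ne.eventually_mem hza).mono
          hne)).differentiableWithinAt
        exact (hf.differentiableAt (hU.mem_nhds hzU)).div (by fun_prop)
          (pow_ne_zero _ (sub_ne_zero.2 hza))
    have hfg : ∀ z ∈ U, f z = (z - a) ^ m * g z := fun z _ => by
      rcases eq_or_ne z a with rfl | hza
      · rw [hga]
        simpa using hfg₀.self_of_nhds
      · rw [hne z hza, mul_div_cancel₀ _ (pow_ne_zero _ (sub_ne_zero.2 hza))]
    have hordg : ∀ b ∈ S, analyticOrderAt g b = analyticOrderAt f b := fun b hb => by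
      have hba : b ≠ a := fun h => haS (h ▸ hb)
      have hbU := (hord b (Finset.mem_insert_of_mem hb)).1
      have e : f =ᶠ[𝓝 b] (fun z => (z - a) ^ m) * g :=
        eventually_of_mem (hU.mem_nhds hbU) hfg
      rw [analyticOrderAt_congr e, analyticOrderAt_mul (by fun_prop)
        (hgd.analyticAt (hU.mem_nhds hbU)), (analyticOrderAt_eq_zero (f := fun z => (z - a) ^ m)).2
          (.inr (pow_ne_zero _ (sub_ne_zero.2 hba))), zero_add]
    obtain ⟨hint, heq⟩ := ih g hgd (fun b hb => ⟨(hord b (Finset.mem_insert_of_mem hb)).1,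
      by rw [hordg b hb]; exact (hord b (Finset.mem_insert_of_mem hb)).2⟩) fun b hb hgb => by
        have hba : b ≠ a := fun h => hg₀a (by rw [← hga, ← h]; exact hgb)
        refine Finset.mem_of_mem_insert_of_ne (hz b hb ?_) hba
        rw [hfg b (hsub hb), hgb, mul_zero]
    have hae : (fun z => deriv f z / f z * dbar φ z) =ᵐ[volume]
        fun z => (m : ℂ) * (dbar φ z / (z - a)) + deriv g z / g z * dbar φ z := by
      filter_upwards [compl_mem_ae_iff.2 ((insert a S).finite_toSet.measure_zero volume)] with z hzS
      by_cases hzt : z ∈ tsupport φ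
      · have hzU := hsub hzt
        have hza : z ≠ a := fun h => hzS (h ▸ Finset.mem_insert_self a S)
        have hfz : f z ≠ 0 := fun h => hzS (hz z hzt h)
        have hgz : g z ≠ 0 := fun h => hfz (by rw [hfg z hzU, h, mul_zero])
        have hd : HasDerivAt f
            ((m : ℂ) * (z - a) ^ (m - 1) * g z + (z - a) ^ m * deriv g z) z := by
          refine HasDerivAt.congr_of_eventuallyEq ?_ (eventually_of_mem (hU.mem_nhds hzU) hfg)
          convert! (((hasDerivAt_id z).sub_const a).pow m).mul
            (hgd.differentiableAt (hU.mem_nhds hzU)).hasDerivAt using 1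
          simp
        rw [hd.deriv, hfg z hzU]
        have hza' := sub_ne_zero.2 hza
        rcases m.eq_zero_or_pos with h0 | h0
        · simp [h0]
        · obtain ⟨m', hm'⟩ : ∃ m', m = m' + 1 := ⟨m - 1, by omega⟩
          rw [hm', Nat.add_sub_cancel, pow_succ]
          field_simp
      · simp [dbar_of_notMem_tsupport hzt]
    have hint1 := (integrable_div_sub (continuous_dbar hφ) (hasCompactSupport_dbar hφs) a).const_mul
      (m : ℂ)
    refine ⟨(hint1.add hint).congr hae.symm, ?_⟩
    have hnat : ∀ b ∈ S, (analyticOrderNatAt g b : ℂ) * φ b = analyticOrderNatAt f b * φ b :=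
      fun b hb => by simp only [analyticOrderNatAt, hordg b hb]
    rw [integral_congr_ae hae, integral_add hint1 hint, integral_const_mul,
      integral_dbar_div_sub hφ hφs, heq, Finset.sum_insert haS, Finset.sum_congr rfl hnat]
    simp only [m]
    ring

end FA.CocompactDegree

end
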